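import Fermat.Agent.S55.H963.BrMain
import Fermat.Agent.S55.G.SI777.Final

/-!
# S55 / layer G: the SECOND INEQUALITY `G.SecondInequalitySpec`, unconditional

* `Br.indexBound : G.SI777.IndexBoundStatement` — helper777's index bound statement, from
  `Br.card_quotient_le` (analytic second inequality in the `S`-idèle model, helper963);
* `Br.secondInequality : G.SecondInequalitySpec` — via helper777's assembly
  `SI777.secondInequality_of_indexBound` (Galois descent helper773, `CyclicCardSpec` helper895).
-/

set_option autoImplicit false
set_option maxHeartbeats 400000
set_option linter.unusedSectionVars false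
set_option linter.unusedVariables false

open scoped NumberField TensorProduct

open IsDedekindDomain

noncomputable section

namespace Fermat.Agent.S55.H963.Br

open Fermat.Agent.S55.G

/-- **The index bound** (analytic second inequality in the `S`-idèle class group). -/
theorem indexBound : G.SI777.IndexBoundStatement := by
  intro S K L _ _ _ _ _ n hn hS H hpow hsplit
  have h := card_quotient_le (L := L) hS hn H hpow (fun w hw hwS => by
    have hwL : ¬ IsAbove S L w := fun h =>
      hwS ((DescH773.isAbove_primeUnder_iff S K w).2 h)
    exact hsplit ⟨w, hwL⟩ hw)
  obtain ⟨hfin, hcard⟩ := h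
  have hidx : H.index = Nat.card (CS S K ⧸ H) := rfl
  refine ⟨?_, by rw [hidx]; exact hcard⟩
  rw [hidx]
  exact Nat.card_pos.ne'

/-- **G-SI: the second inequality**, unconditional. -/
theorem secondInequality : G.SecondInequalitySpec :=
  G.SI777.secondInequality_of_indexBound indexBound

end Fermat.Agent.S55.H963.Br
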