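import Fermat.Agent.S55.H963.BrDatum

/-!
# S55 / G-SI bridge (helper963): the second inequality in helper421's `C_S` model

`Br.card_quotient_le` : let `K ⊆ L` be number fields, `S ≠ ∅` a finite set of primes, `n > 0`
and `H ≤ C_S(K)` (helper421's `CS S K = (J_S(K) × Div^S(K)) / Kˣ`) a subgroup such that
* `n • C_S(K) ⊆ H`;
* for every prime `w` of `L` of prime absolute norm whose restriction `v` to `K` is not above
  `S`, the class of `(1, [v])` lies in `H`.
Then `C_S(K) / H` is finite of order `≤ [L : K]`.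

Application (second inequality): `H` = classes whose base change to `L` is a norm.
-/

set_option autoImplicit false
set_option maxHeartbeats 400000
set_option linter.style.haveILetI false
set_option linter.unusedSectionVars false
set_option linter.unusedVariables false

open scoped NumberField TensorProduct nonZeroDivisors

open IsDedekindDomain

noncomputable section

namespace Fermat.Agent.S55.H963.Br

open Fermat.Agent.S55.G

variable {S : Finset Nat.Primes} {K : Type} [Field K] [NumberField K]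

theorem nontrivial_QS (hS : S.Nonempty) : Nontrivial (QS S) := by
  obtain ⟨q, hq⟩ := hS
  refine ⟨⟨0, 1, fun h => ?_⟩⟩
  have := congrFun h ⟨q, hq⟩
  exact zero_ne_one this

theorem asDiag_injective (hS : S.Nonempty) : Function.Injective (asDiag S K) := by
  haveI := nontrivial_QS hS
  exact Algebra.TensorProduct.includeLeft_injective (algebraMap ℚ (QS S)).injective

/-- Every `S`-idèle is a principal idèle times a unit congruent to `1` modulo `P ^ (2n+2)`. -/
theorem exists_unit_approx (hS : S.Nonempty) (n : ℕ) (j : (AS S K)ˣ) :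
    ∃ (x : Kˣ) (u : (AS S K)ˣ) (r : RS S K),
      (u : AS S K) = 1 + ((PS S : ℕ) : AS S K) ^ (2 * n + 2) * phi S K r ∧
      Units.map ((asDiag S K : K →ₐ[ℚ] AS S K) : K →* AS S K) x = j * u := by
  obtain ⟨e, r₁, h₁⟩ := exists_denom_AS S K ((j⁻¹ : (AS S K)ˣ) : AS S K)
  obtain ⟨x, r₂, h₂⟩ := exists_approx_AS S K (j : AS S K) (2 * n + 2 + e)
  set P : AS S K := ((PS S : ℕ) : AS S K) with hP
  have hu0 : ((j⁻¹ : (AS S K)ˣ) : AS S K) * asDiag S K x =
      1 + P ^ (2 * n + 2) * phi S K (-(r₁ * r₂)) := by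
    have hx : asDiag S K x = (j : AS S K) - P ^ (2 * n + 2 + e) * phi S K r₂ := by
      rw [← h₂]; ring
    rw [hx, mul_sub, Units.inv_mul, map_neg, map_mul, ← h₁]
    ring
  have hunit : IsUnit (1 + P ^ (2 * n + 2) * phi S K (-(r₁ * r₂))) := by
    have := isUnit_one_add_AS S K (((PS S : ℕ) : RS S K) ^ (2 * n + 1) * (-(r₁ * r₂)))
    rw [map_mul, map_pow, map_natCast, ← mul_assoc, ← pow_succ'] at this
    exact this
  obtain ⟨u, hu⟩ := hunit
  have hxunit : IsUnit (asDiag S K x) := by
    have : asDiag S K x = (j : AS S K) * (u : AS S K) := by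
      rw [hu, ← hu0, ← mul_assoc, Units.mul_inv, one_mul]
    rw [this]
    exact (j * u).isUnit
  have hx0 : x ≠ 0 := by
    rintro rfl
    rw [map_zero] at hxunit
    have h01 : (0 : AS S K) = 1 := by
      obtain ⟨z, hz⟩ := hxunit
      have := z.mul_inv
      rw [hz, zero_mul] at this
      exact this
    have : asDiag S K (0 : K) = asDiag S K 1 := by rw [map_zero, map_one]; exact h01
    exact zero_ne_one (asDiag_injective hS this)
  refine ⟨Units.mk0 x hx0, u, -(r₁ * r₂), hu, ?_⟩
  apply Units.ext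
  show asDiag S K x = (j : AS S K) * (u : AS S K)
  rw [hu, ← hu0, ← mul_assoc, Units.mul_inv, one_mul]

theorem cl_zero_zero (H : AddSubgroup (CS S K)) : cl H ((0, 0) : JD S K) = 0 := by
  have : ((0, 0) : JD S K) = 0 := Prod.ext rfl rfl
  rw [this, map_zero]

/-- The classes of the integral ideals prime to the modulus, as a submonoid of `C_S(K) / H`. -/
def repMonoid (n : ℕ) (H : AddSubgroup (CS S K)) : AddSubmonoid (CS S K ⧸ H) where
  carrier := {a | ∃ 𝔠 : Ideal (𝓞 K), 𝔠 ≠ ⊥ ∧ IsCoprime 𝔠 (modulus S K n) ∧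
    cl H (0, divS S K 𝔠) = a}
  zero_mem' := ⟨⊤, top_ne_bot, Ideal.isCoprime_iff_sup_eq.mpr (top_sup_eq _), by
    rw [divS_top]
    exact cl_zero_zero H⟩
  add_mem' := by
    rintro a b ⟨𝔠, h0, hc, rfl⟩ ⟨𝔠', h0', hc', rfl⟩
    refine ⟨𝔠 * 𝔠', ?_, hc.mul_left hc', ?_⟩
    · rw [Ne, Ideal.mul_eq_bot]
      exact fun h => h.elim h0 h0'
    · rw [divS_mul S K h0 h0', cl_add_snd]

/-- The classes of the integral ideals prime to the modulus, as a subgroup of `C_S(K) / H`. -/
def repSet {n : ℕ} (hn : 0 < n) (H : AddSubgroup (CS S K))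
    (hpow : ∀ c : CS S K, n • c ∈ H) : AddSubgroup (CS S K ⧸ H) :=
  subgroupOfTorsion (repMonoid n H) hn (nsmul_cl H hpow)

theorem mem_repSet {n : ℕ} (hn : 0 < n) (H : AddSubgroup (CS S K))
    (hpow : ∀ c : CS S K, n • c ∈ H) (a : CS S K ⧸ H) :
    a ∈ repSet hn H hpow ↔ ∃ 𝔠 : Ideal (𝓞 K), 𝔠 ≠ ⊥ ∧ IsCoprime 𝔠 (modulus S K n) ∧
        cl H (0, divS S K 𝔠) = a := Iff.rfl

theorem cl_div_mem_repSet {n : ℕ} (hn : 0 < n) (H : AddSubgroup (CS S K))
    (hpow : ∀ c : CS S K, n • c ∈ H) (d : PrimeOut S K →₀ ℤ) :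
    cl H (0, d) ∈ repSet hn H hpow := by
  induction d using Finsupp.induction_linear with
  | zero =>
    rw [cl_zero_zero]
    exact (repSet hn H hpow).zero_mem
  | add d d' hd hd' =>
    rw [cl_add_snd]
    exact (repSet hn H hpow).add_mem hd hd'
  | single v k =>
    have h1 : ((0, Finsupp.single v k) : JD S K) = k • ((0, Finsupp.single v 1) : JD S K) := by
      refine Prod.ext ?_ ?_
      · show (0 : Additive (AS S K)ˣ) = k • 0
        rw [smul_zero]
      · show Finsupp.single v k = k • Finsupp.single v 1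
        rw [Finsupp.smul_single, smul_eq_mul, mul_one]
    rw [h1, map_zsmul]
    refine (repSet hn H hpow).zsmul_mem ?_ k
    exact (mem_repSet hn H hpow _).mpr
      ⟨v.1.asIdeal, v.1.ne_bot, isCoprime_of_not_isAbove S K v n, by rw [divS_prime]⟩

theorem datum_isSurj (hS : S.Nonempty) {n : ℕ} (hn : 0 < n) (H : AddSubgroup (CS S K))
    (hpow : ∀ c : CS S K, n • c ∈ H) : (datum hS hn H hpow).IsSurj := by
  intro a
  obtain ⟨⟨j', d⟩, hjd⟩ := cl_surjective H (Multiplicative.toAdd a)
  obtain ⟨x, u, r, hu, hxu⟩ := exists_unit_approx hS n (Additive.toMul j')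
  have hsplit : ((j', d) : JD S K) =
      diagHom S K (Additive.ofMul x) - (Additive.ofMul u, 0) +
        (0, d - ordHom S K (Additive.ofMul x)) := by
    refine Prod.ext ?_ ?_
    · show j' = unitsDiag S K (Additive.ofMul x) - Additive.ofMul u + 0
      have h1 : unitsDiag S K (Additive.ofMul x) = Additive.ofMul (Additive.toMul j' * u) := by
        rw [← hxu]; rfl
      rw [h1, add_zero, ofMul_mul, ofMul_toMul, add_sub_cancel_right]
    · show d = ordHom S K (Additive.ofMul x) - 0 + (d - ordHom S K (Additive.ofMul x))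
      abel
  have hcl : cl H (j', d) = cl H (0, d - ordHom S K (Additive.ofMul x)) := by
    rw [hsplit, map_add, map_sub, cl_diag, cl_unit_eq_zero hn H hpow u r hu, sub_zero, zero_add]
  have hmem := cl_div_mem_repSet hn H hpow (d - ordHom S K (Additive.ofMul x))
  rw [← hcl, hjd] at hmem
  obtain ⟨𝔠, h0, hc, h𝔠⟩ := (mem_repSet hn H hpow _).mp hmem
  refine ⟨𝔠, h0, hc, ?_⟩
  show psi S K H 𝔠 = a
  rw [psi_of_ne_bot H h0, h𝔠, ofAdd_toAdd]

variable {L : Type*} [Field L] [NumberField L] [Algebra K L]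

/-- **G-SI core: the second inequality in the `C_S` model.** -/
theorem card_quotient_le (hS : S.Nonempty) {n : ℕ} (hn : 0 < n) (H : AddSubgroup (CS S K))
    (hpow : ∀ c : CS S K, n • c ∈ H)
    (hsplit : ∀ w : HeightOneSpectrum (𝓞 L), (Ideal.absNorm w.asIdeal).Prime →
      ∀ hw : ¬ IsAbove S K (HeightOneSpectrum.under (𝓞 K) w),
        (Submodule.Quotient.mk
          ((0, Finsupp.single (α := PrimeOut S K) ⟨HeightOneSpectrum.under (𝓞 K) w, hw⟩
            (1 : ℤ)) : JD S K) : CS S K) ∈ H) :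
    Finite (CS S K ⧸ H) ∧ Nat.card (CS S K ⧸ H) ≤ Module.finrank K L := by
  refine finite_and_card_le_of_quotients hn (nsmul_cl H hpow) _ fun B hB => ?_
  let f : Multiplicative (CS S K ⧸ H) →* Multiplicative ((CS S K ⧸ H) ⧸ B) :=
    AddMonoidHom.toMultiplicative (QuotientAddGroup.mk' B)
  have hf : Function.Surjective f := fun a => by
    obtain ⟨b, hb⟩ := QuotientAddGroup.mk'_surjective B (Multiplicative.toAdd a)
    exact ⟨Multiplicative.ofAdd b, by
      show Multiplicative.ofAdd (QuotientAddGroup.mk' B b) = a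
      rw [hb, ofAdd_toAdd]⟩
  let D := (datum hS hn H hpow).map f
  haveI : Finite (Multiplicative ((CS S K ⧸ H) ⧸ B)) := hB
  have hD := D.card_le_finrank (L := L)
    ((datum hS hn H hpow).map_isSurj f hf (datum_isSurj hS hn H hpow)) (by
      intro w hw hc
      have hw' : ¬ IsAbove S K (HeightOneSpectrum.under (𝓞 K) w) :=
        not_isAbove_of_isCoprime S K _ n hc
      have h1 := hsplit w hw hw'
      have h2 : cl H ((0, Finsupp.single (α := PrimeOut S K)
          ⟨HeightOneSpectrum.under (𝓞 K) w, hw'⟩ (1 : ℤ)) : JD S K) = 0 :=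
        (QuotientAddGroup.eq_zero_iff _).mpr h1
      show f (psi S K H (w.asIdeal.under (𝓞 K))) = 1
      have h3 : psi S K H (w.asIdeal.under (𝓞 K)) = 1 := by
        have h0 : (w.asIdeal.under (𝓞 K)) ≠ ⊥ := (HeightOneSpectrum.under (𝓞 K) w).ne_bot
        rw [psi_of_ne_bot H h0]
        have h5 : divS S K (w.asIdeal.under (𝓞 K)) = Finsupp.single (α := PrimeOut S K)
            ⟨HeightOneSpectrum.under (𝓞 K) w, hw'⟩ (1 : ℤ) :=
          divS_prime S K (⟨HeightOneSpectrum.under (𝓞 K) w, hw'⟩ : PrimeOut S K)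
        have h6 : cl H ((0, divS S K (w.asIdeal.under (𝓞 K))) : JD S K) = 0 := by
          rw [h5]; exact h2
        rw [h6]
        rfl
      rw [h3, map_one])
  have hcard : Nat.card (Multiplicative ((CS S K ⧸ H) ⧸ B)) = Nat.card ((CS S K ⧸ H) ⧸ B) :=
    Nat.card_congr Multiplicative.toAdd
  rw [← hcard]
  exact hD

end Fermat.Agent.S55.H963.Br
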