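import Fermat.Agent.S55.H963.Ray

/-!
# S55 / leaf RAY-N1 (helper963): asymptotics of the smoothed sum over a congruence class

For an ideal `J₀ ≠ 0` coprime to the modulus `m` and `b : A`:
`N(J₀) N(m) ∑_{x ≠ 0, (x) ≤ J₀, (x) coprime to m, ψ(x) = b} F s x = #Θ_b * Φ(s) + O(1)`,
uniformly in `s ∈ (1, 2]`.
-/

set_option autoImplicit false

namespace Fermat.Agent.S55.H963

open NumberField

variable {K : Type*} [Field K] [NumberField K] {A : Type*} [CommGroup A]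

/-- Coset decomposition of a sum over `𝓞 K` along an ideal of finite index. -/
theorem tsum_eq_sum_coset (J : Ideal (𝓞 K)) [Fintype (𝓞 K ⧸ J)] (h : 𝓞 K → ℝ)
    (hh : Summable h) :
    ∑' x : 𝓞 K, h x = ∑ q : 𝓞 K ⧸ J, ∑' y : J, h ((y : 𝓞 K) + Quotient.out q) := by
  have hs' : Summable (h ∘ UnitKernel.cosetEquiv J) :=
    ((UnitKernel.cosetEquiv J).summable_iff (f := h)).mpr hh
  have e1 : ∑' x : 𝓞 K, h x = ∑' p : (𝓞 K ⧸ J) × J, (h ∘ UnitKernel.cosetEquiv J) p :=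
    ((UnitKernel.cosetEquiv J).tsum_eq h).symm
  have hsumq' : ∀ q : 𝓞 K ⧸ J, Summable fun y : J => (h ∘ UnitKernel.cosetEquiv J) (q, y) := by
    intro q
    simp only [Function.comp_apply, UnitKernel.cosetEquiv_apply]
    refine hh.comp_injective (i := fun y : J => (y : 𝓞 K) + Quotient.out q) ?_
    intro y y' hyy
    exact Subtype.ext (add_right_cancel hyy)
  rw [e1, hs'.tsum_prod' hsumq', tsum_fintype]
  simp only [Function.comp_apply, UnitKernel.cosetEquiv_apply]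

namespace RayDatum

variable (D : RayDatum K A) (κ : UnitKernel K)

open Classical in
/-- The summand of the smoothed sum over the good elements of `J₀`. -/
noncomputable def goodF (J₀ : Ideal (𝓞 K)) (b : A) (s : ℝ) (x : 𝓞 K) : ℝ :=
  if x ∈ J₀ ∧ D.Good x b then κ.F s x else 0

theorem goodF_nonneg (J₀ : Ideal (𝓞 K)) (b : A) (s : ℝ) (x : 𝓞 K) :
    0 ≤ D.goodF κ J₀ b s x := by
  unfold goodF
  split_ifs
  · exact κ.nonneg s x
  · exact le_rfl

theorem goodF_le (J₀ : Ideal (𝓞 K)) (b : A) (s : ℝ) (x : 𝓞 K) :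
    D.goodF κ J₀ b s x ≤ κ.F s x := by
  unfold goodF
  split_ifs
  · exact le_rfl
  · exact κ.nonneg s x

theorem summable_goodF (J₀ : Ideal (𝓞 K)) (b : A) {s : ℝ} (hs : 1 < s) :
    Summable (D.goodF κ J₀ b s) :=
  Summable.of_nonneg_of_le (D.goodF_nonneg κ J₀ b s) (D.goodF_le κ J₀ b s) (κ.summable s hs)

theorem mem_genSet_below {J₀ : Ideal (𝓞 K)} {b : A} {x : 𝓞 K} :
    x ∈ genSet (D.below J₀ b) ↔ x ≠ 0 ∧ x ∈ J₀ ∧ D.Good x b := by
  unfold genSet below Good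
  simp only [Set.mem_setOf_eq, Ideal.span_singleton_le_iff_mem]

/-- The smoothed sum over the generators is the sum of `goodF`. -/
theorem tsum_genSet_below (J₀ : Ideal (𝓞 K)) (b : A) (s : ℝ) :
    ∑' x : genSet (D.below J₀ b), κ.F s x = ∑' x : 𝓞 K, D.goodF κ J₀ b s x := by
  rw [tsum_subtype (genSet (D.below J₀ b)) (κ.F s)]
  congr 1
  funext x
  classical
  unfold goodF Set.indicator
  by_cases hx0 : x = 0
  · subst hx0
    simp [κ.map_zero]
  · by_cases h : x ∈ J₀ ∧ D.Good x b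
    · rw [if_pos h, if_pos (D.mem_genSet_below.mpr ⟨hx0, h⟩)]
    · rw [if_neg h, if_neg (fun hh => h (D.mem_genSet_below.mp hh).2)]

open Classical in
theorem tsum_goodF_coset (J₀ : Ideal (𝓞 K)) (b : A) (s : ℝ) (q : 𝓞 K ⧸ (J₀ ⊓ D.m)) :
    ∑' y : (J₀ ⊓ D.m : Ideal (𝓞 K)), D.goodF κ J₀ b s ((y : 𝓞 K) + Quotient.out q) =
      if D.CosetCond J₀ b q then κ.cosetSum (J₀ ⊓ D.m) (Quotient.out q) s else 0 := by
  by_cases hq : D.CosetCond J₀ b q
  · rw [if_pos hq]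
    unfold UnitKernel.cosetSum
    congr 1
    funext y
    unfold goodF
    rw [if_pos ((D.mem_and_good_add_iff J₀ b _ y).mpr hq)]
  · rw [if_neg hq]
    have : ∀ y : (J₀ ⊓ D.m : Ideal (𝓞 K)),
        D.goodF κ J₀ b s ((y : 𝓞 K) + Quotient.out q) = 0 := by
      intro y
      unfold goodF
      rw [if_neg (fun h => hq ((D.mem_and_good_add_iff J₀ b _ y).mp h))]
    simp only [this, tsum_zero]

/-- **Asymptotics of the smoothed sum over a congruence class in `J₀`.** -/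
theorem exists_below_bound (J₀ : Ideal (𝓞 K)) (hJ₀ne : J₀ ≠ ⊥) (hJ₀ : IsCoprime J₀ D.m)
    (b : A) : ∃ B : ℝ, ∀ s : ℝ, 1 < s → s ≤ 2 →
      |(Ideal.absNorm J₀ : ℝ) * (Ideal.absNorm D.m : ℝ) *
          (∑' x : genSet (D.below J₀ b), κ.F s x) -
        (Nat.card (D.theta b) : ℝ) * κ.total s| ≤ B := by
  classical
  have hJne : J₀ ⊓ D.m ≠ ⊥ := D.inf_ne_bot hJ₀ne
  have : Finite (𝓞 K ⧸ (J₀ ⊓ D.m)) := Ideal.finiteQuotientOfFreeOfNeBot _ hJne
  let _ : Fintype (𝓞 K ⧸ (J₀ ⊓ D.m)) := Fintype.ofFinite _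
  choose B hB using fun t : 𝓞 K => κ.exists_coset_bound (J₀ ⊓ D.m) hJne t
  refine ⟨∑ q : 𝓞 K ⧸ (J₀ ⊓ D.m), |B (Quotient.out q)|, fun s hs1 hs2 => ?_⟩
  have hN : (Ideal.absNorm J₀ : ℝ) * (Ideal.absNorm D.m : ℝ) =
      (Ideal.absNorm (J₀ ⊓ D.m) : ℝ) := by
    rw [D.absNorm_inf hJ₀, Nat.cast_mul]
  have hcard : (Nat.card (D.theta b) : ℝ) =
      ∑ q : 𝓞 K ⧸ (J₀ ⊓ D.m), if D.CosetCond J₀ b q then (1 : ℝ) else 0 := by
    rw [← D.card_cosetCond J₀ hJ₀ b, Finset.sum_boole, Nat.card_eq_fintype_card,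
      Fintype.card_subtype]
  rw [D.tsum_genSet_below κ J₀ b s,
    tsum_eq_sum_coset (J₀ ⊓ D.m) _ (D.summable_goodF κ J₀ b hs1), hN, hcard,
    Finset.mul_sum, Finset.sum_mul, ← Finset.sum_sub_distrib]
  refine (Finset.abs_sum_le_sum_abs _ _).trans (Finset.sum_le_sum fun q _ => ?_)
  rw [D.tsum_goodF_coset κ J₀ b s q]
  by_cases hq : D.CosetCond J₀ b q
  · rw [if_pos hq, if_pos hq, one_mul]
    exact (hB _ s hs1 hs2).trans (le_abs_self _)
  · rw [if_neg hq, if_neg hq]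
    simp

end RayDatum

end Fermat.Agent.S55.H963
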