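import Fermat.Agent.S55.H963.BrRing

/-!
# S55 / G-SI bridge (helper963): the `S`-adèle ring `K ⊗ ℚ_S` and its integral subring

* `zsToQs : ℤ_S → ℚ_S`, `phi : ℤ_S ⊗ 𝓞 K → K ⊗ ℚ_S`;
* `exists_pow_eq_AS` : `1 + P ^ (2n+2) φ(r)` is an `n`-th power in `K ⊗ ℚ_S`;
* `exists_denom_AS` : every `α ∈ K ⊗ ℚ_S` is `P ^ (-e) φ(r)`;
* `exists_approx_AS` : weak approximation, `K` is dense in `K ⊗ ℚ_S`.
-/

set_option autoImplicit false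
set_option linter.style.haveILetI false
set_option linter.unusedSectionVars false
set_option linter.unusedVariables false

open scoped NumberField TensorProduct

noncomputable section

namespace Fermat.Agent.S55.H963.Br

open Fermat.Agent.S55.G

variable (S : Finset Nat.Primes)

/-- The inclusion `ℤ_S → ℚ_S`. -/
def zsToQs : ZS S →+* QS S where
  toFun c := fun q => ((c q : Zq q.1) : Qq q.1)
  map_one' := rfl
  map_mul' _ _ := rfl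
  map_zero' := rfl
  map_add' _ _ := rfl

@[simp] theorem zsToQs_apply (c : ZS S) (q : S) : zsToQs S c q = ((c q : Zq q.1) : Qq q.1) := rfl

theorem QS.natCast_apply (n : ℕ) (q : S) : ((n : QS S)) q = (n : Qq q.1) := rfl

theorem QS.mul_apply (a b : QS S) (q : S) : (a * b) q = a q * b q := rfl

theorem QS.pow_apply (a : QS S) (k : ℕ) (q : S) : (a ^ k) q = a q ^ k := rfl

theorem QS.sub_apply (a b : QS S) (q : S) : (a - b) q = a q - b q := rfl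

theorem QS.algebraMap_apply (r : ℚ) (q : S) : (algebraMap ℚ (QS S) r) q = (r : Qq q.1) := rfl

theorem QS.ext {a b : QS S} (h : ∀ q : S, a q = b q) : a = b := funext h

/-- `‖PS S‖_q ≤ q⁻¹ < 1` for `q ∈ S`. -/
theorem norm_PS_le {q : Nat.Primes} (hq : q ∈ S) :
    letI : Fact (q : ℕ).Prime := ⟨q.2⟩
    ‖((PS S : ℕ) : ℚ_[(q : ℕ)])‖ ≤ ((q : ℕ) : ℝ)⁻¹ := by
  letI : Fact (q : ℕ).Prime := ⟨q.2⟩
  rw [PS_eq_mul hq, Nat.cast_mul, norm_mul, Padic.norm_p]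
  have h1 : ‖(((∏ r ∈ S.erase q, (r : ℕ) : ℕ)) : ℚ_[(q : ℕ)])‖ ≤ 1 := by
    have := Padic.norm_int_le_one (p := (q : ℕ)) ((∏ r ∈ S.erase q, (r : ℕ) : ℕ) : ℤ)
    simpa using this
  have h0 : (0 : ℝ) ≤ ((q : ℕ) : ℝ)⁻¹ := by positivity
  calc ((q : ℕ) : ℝ)⁻¹ * _ ≤ ((q : ℕ) : ℝ)⁻¹ * 1 := mul_le_mul_of_nonneg_left h1 h0
    _ = _ := mul_one _

theorem norm_PS_le_one {q : Nat.Primes} (hq : q ∈ S) :
    letI : Fact (q : ℕ).Prime := ⟨q.2⟩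
    ‖((PS S : ℕ) : ℚ_[(q : ℕ)])‖ ≤ 1 := by
  letI : Fact (q : ℕ).Prime := ⟨q.2⟩
  have := Padic.norm_int_le_one (p := (q : ℕ)) ((PS S : ℕ) : ℤ)
  simpa using this

/-- Local denominators: `P ^ e a ∈ ℤ_q` for `e` large. -/
theorem exists_norm_PS_pow_mul_le {q : Nat.Primes} (hq : q ∈ S)
    (a : @Padic (q : ℕ) ⟨q.2⟩) :
    letI : Fact (q : ℕ).Prime := ⟨q.2⟩
    ∃ e : ℕ, ∀ e' : ℕ, e ≤ e' → ‖((PS S : ℕ) : ℚ_[(q : ℕ)]) ^ e' * a‖ ≤ 1 := by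
  letI : Fact (q : ℕ).Prime := ⟨q.2⟩
  have hq1 : (1 : ℝ) < ((q : ℕ) : ℝ) := by exact_mod_cast q.2.one_lt
  obtain ⟨e, he⟩ := pow_unbounded_of_one_lt ‖a‖ hq1
  refine ⟨e, fun e' hee' => ?_⟩
  rw [norm_mul, norm_pow]
  have hqpos : (0 : ℝ) < ((q : ℕ) : ℝ) := by linarith
  have h1 : ‖((PS S : ℕ) : ℚ_[(q : ℕ)])‖ ^ e' ≤ (((q : ℕ) : ℝ)⁻¹) ^ e := by
    calc ‖((PS S : ℕ) : ℚ_[(q : ℕ)])‖ ^ e' ≤ ‖((PS S : ℕ) : ℚ_[(q : ℕ)])‖ ^ e :=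
          pow_le_pow_of_le_one (norm_nonneg _) (norm_PS_le_one S hq) hee'
      _ ≤ _ := pow_le_pow_left₀ (norm_nonneg _) (norm_PS_le S hq) e
  calc ‖((PS S : ℕ) : ℚ_[(q : ℕ)])‖ ^ e' * ‖a‖
      ≤ (((q : ℕ) : ℝ)⁻¹) ^ e * ((q : ℕ) : ℝ) ^ e :=
        mul_le_mul h1 he.le (norm_nonneg _) (by positivity)
    _ = 1 := by
        rw [← mul_pow, inv_mul_cancel₀ hqpos.ne', one_pow]

/-- Denominators in `ℚ_S`. -/
theorem exists_denom_QS (a : QS S) :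
    ∃ e : ℕ, ∀ e' : ℕ, e ≤ e' → ∃ c : ZS S, ((PS S : ℕ) : QS S) ^ e' * a = zsToQs S c := by
  choose e he using fun q : S => exists_norm_PS_pow_mul_le S q.2 (a q)
  refine ⟨∑ q : S, e q, fun e' hee' => ?_⟩
  have hle : ∀ q : S, e q ≤ e' := fun q =>
    le_trans (Finset.single_le_sum (f := e) (fun _ _ => Nat.zero_le _) (Finset.mem_univ q)) hee'
  refine ⟨fun q => ⟨_, he q e' (hle q)⟩, ?_⟩
  exact QS.ext S fun q => rfl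

/-- In `ℤ_q`, `q ∈ S`, divisibility by `q ^ k` implies divisibility by `(PS S) ^ k`. -/
theorem PS_pow_dvd_of_q_pow_dvd {q : Nat.Primes} (hq : q ∈ S) (k : ℕ)
    (y : @PadicInt (q : ℕ) ⟨q.2⟩) :
    letI : Fact (q : ℕ).Prime := ⟨q.2⟩
    ((q : ℕ) : ℤ_[(q : ℕ)]) ^ k ∣ y → ((PS S : ℕ) : ℤ_[(q : ℕ)]) ^ k ∣ y := by
  letI : Fact (q : ℕ).Prime := ⟨q.2⟩
  intro h
  have h1 := associated_PS hq
  rw [Int.cast_natCast] at h1
  exact ((h1.pow_pow (n := k)).dvd_iff_dvd_left).mp h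

/-- Weak approximation for `ℚ`: `ℚ` is dense in `ℚ_S`. -/
theorem exists_approx_QS (a : QS S) (M : ℕ) :
    ∃ ρ : ℚ, ∃ c : ZS S, a - algebraMap ℚ (QS S) ρ = ((PS S : ℕ) : QS S) ^ M * zsToQs S c := by
  obtain ⟨e, he⟩ := exists_denom_QS S a
  obtain ⟨a', ha'⟩ := he e le_rfl
  -- local integer approximations
  let r : S → ℤ := fun q =>
    letI : Fact ((q.1 : Nat.Primes) : ℕ).Prime := ⟨q.1.2⟩
    ((PadicInt.appr (a' q) (M + e) : ℕ) : ℤ)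
  have hr : ∀ q : S,
      letI : Fact ((q.1 : Nat.Primes) : ℕ).Prime := ⟨q.1.2⟩
      (((q.1 : Nat.Primes) : ℕ) : ℤ_[((q.1 : Nat.Primes) : ℕ)]) ^ (M + e) ∣
        (a' q - ((r q : ℤ) : ℤ_[((q.1 : Nat.Primes) : ℕ)])) := by
    intro q
    letI : Fact ((q.1 : Nat.Primes) : ℕ).Prime := ⟨q.1.2⟩
    have := PadicInt.appr_spec (M + e) (a' q)
    rw [Ideal.mem_span_singleton] at this
    simpa [r] using this
  -- CRT
  have hcop : Pairwise (Function.onFun IsCoprime fun q : S =>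
      (Ideal.span {(((q.1 : Nat.Primes) : ℕ) : ℤ) ^ (M + e)} : Ideal ℤ)) := by
    intro q q' hqq'
    rw [Function.onFun, Ideal.isCoprime_span_singleton_iff]
    apply IsCoprime.pow
    rw [Nat.isCoprime_iff_coprime, Nat.coprime_primes q.1.2 q'.1.2]
    intro h
    exact hqq' (Subtype.ext (Subtype.ext h))
  obtain ⟨ρ', hρ'⟩ := Ideal.exists_forall_sub_mem_ideal hcop r
  have hdiv : ∀ q : S,
      letI : Fact ((q.1 : Nat.Primes) : ℕ).Prime := ⟨q.1.2⟩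
      ((PS S : ℕ) : ℤ_[((q.1 : Nat.Primes) : ℕ)]) ^ (M + e) ∣
        (a' q - ((ρ' : ℤ) : ℤ_[((q.1 : Nat.Primes) : ℕ)])) := by
    intro q
    letI : Fact ((q.1 : Nat.Primes) : ℕ).Prime := ⟨q.1.2⟩
    apply PS_pow_dvd_of_q_pow_dvd S q.2
    have h1 := hρ' q
    rw [Ideal.mem_span_singleton] at h1
    have h2 : (((q.1 : Nat.Primes) : ℕ) : ℤ_[((q.1 : Nat.Primes) : ℕ)]) ^ (M + e) ∣
        (((ρ' - r q : ℤ)) : ℤ_[((q.1 : Nat.Primes) : ℕ)]) := by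
      obtain ⟨u, hu⟩ := h1
      exact ⟨(u : ℤ_[((q.1 : Nat.Primes) : ℕ)]), by rw [hu]; push_cast; ring⟩
    have h3 : a' q - ((ρ' : ℤ) : ℤ_[((q.1 : Nat.Primes) : ℕ)]) =
        (a' q - ((r q : ℤ) : ℤ_[((q.1 : Nat.Primes) : ℕ)])) -
          (((ρ' - r q : ℤ)) : ℤ_[((q.1 : Nat.Primes) : ℕ)]) := by
      push_cast; ring
    rw [h3]
    exact dvd_sub (hr q) h2
  choose c hc using hdiv
  refine ⟨(ρ' : ℚ) / ((PS S : ℕ) : ℚ) ^ e, c, ?_⟩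
  apply QS.ext S
  intro q
  letI : Fact ((q.1 : Nat.Primes) : ℕ).Prime := ⟨q.1.2⟩
  have hP0 : ((PS S : ℕ) : ℚ_[((q.1 : Nat.Primes) : ℕ)]) ≠ 0 := by
    exact_mod_cast (PS_pos S).ne'
  have hPe0 : ((PS S : ℕ) : ℚ_[((q.1 : Nat.Primes) : ℕ)]) ^ e ≠ 0 := pow_ne_zero _ hP0
  have h1 : ((PS S : ℕ) : ℚ_[((q.1 : Nat.Primes) : ℕ)]) ^ e * a q =
      ((a' q : ℤ_[((q.1 : Nat.Primes) : ℕ)]) : ℚ_[((q.1 : Nat.Primes) : ℕ)]) := by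
    have := congrFun ha' q
    exact this
  have h2 : ((a' q : ℤ_[((q.1 : Nat.Primes) : ℕ)]) : ℚ_[((q.1 : Nat.Primes) : ℕ)]) -
      ((ρ' : ℤ) : ℚ_[((q.1 : Nat.Primes) : ℕ)]) =
      ((PS S : ℕ) : ℚ_[((q.1 : Nat.Primes) : ℕ)]) ^ (M + e) *
        ((c q : ℤ_[((q.1 : Nat.Primes) : ℕ)]) : ℚ_[((q.1 : Nat.Primes) : ℕ)]) := by
    have := congrArg (fun z : ℤ_[((q.1 : Nat.Primes) : ℕ)] =>
      (z : ℚ_[((q.1 : Nat.Primes) : ℕ)])) (hc q)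
    simpa using this
  rw [QS.sub_apply, QS.algebraMap_apply, QS.mul_apply, QS.pow_apply, QS.natCast_apply,
    zsToQs_apply]
  apply mul_left_cancel₀ hPe0
  rw [mul_sub, h1]
  have h3 : ((PS S : ℕ) : ℚ_[((q.1 : Nat.Primes) : ℕ)]) ^ e *
      (((ρ' : ℚ) / ((PS S : ℕ) : ℚ) ^ e : ℚ) : ℚ_[((q.1 : Nat.Primes) : ℕ)]) =
      ((ρ' : ℤ) : ℚ_[((q.1 : Nat.Primes) : ℕ)]) := by
    push_cast
    field_simp
  rw [h3, h2]
  ring

end Fermat.Agent.S55.H963.Br
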