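import Fermat.Agent.S55.H963.BrAdele

/-!
# S55 / G-SI bridge (helper963): `K ⊗ ℚ_S` — integral subring, roots, approximation

* `phi : ℤ_S ⊗ 𝓞 K →+* K ⊗ ℚ_S`;
* `as_induction` : `K ⊗ ℚ_S` is additively generated by the `x ⊗ a`, `x ∈ 𝓞 K`;
* `exists_pow_eq_AS` : `1 + P ^ (2n+2) φ(r)` is an `n`-th power in `K ⊗ ℚ_S`;
* `isUnit_one_add_AS` : `1 + P φ(w)` is a unit;
* `exists_denom_AS` : every `α ∈ K ⊗ ℚ_S` is `P ^ (-e) φ(r)`;
* `exists_approx_AS` : weak approximation, `K` is dense in `K ⊗ ℚ_S`.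
-/

set_option autoImplicit false
set_option linter.style.haveILetI false
set_option linter.unusedSectionVars false
set_option linter.unusedVariables false

open scoped NumberField TensorProduct

noncomputable section

namespace Fermat.Agent.S55.H963.Br

open Fermat.Agent.S55.G

variable (S : Finset Nat.Primes) (K : Type) [Field K] [NumberField K]

/-- The ring homomorphism `ℤ_S ⊗ 𝓞 K → K ⊗ ℚ_S`, `c ⊗ x ↦ x ⊗ c`. -/
def phi : RS S K →+* AS S K :=
  (Algebra.TensorProduct.productMap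
    (((asIncl S K : QS S →ₐ[ℚ] AS S K) : QS S →+* AS S K).comp (zsToQs S)).toIntAlgHom
    (((asDiag S K : K →ₐ[ℚ] AS S K) : K →+* AS S K).comp (algebraMap (𝓞 K) K)).toIntAlgHom
      : RS S K →ₐ[ℤ] AS S K).toRingHom

theorem phi_tmul (c : ZS S) (x : 𝓞 K) :
    phi S K (c ⊗ₜ[ℤ] x) = (x : K) ⊗ₜ[ℚ] zsToQs S c := by
  have h : phi S K (c ⊗ₜ[ℤ] x) = (asIncl S K (zsToQs S c)) * (asDiag S K ((x : K))) :=
    Algebra.TensorProduct.productMap_apply_tmul _ _ c x
  rw [h, asDiag_apply]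
  simp only [asIncl, Algebra.TensorProduct.includeRight_apply,
    Algebra.TensorProduct.tmul_mul_tmul, one_mul, mul_one]

/-- `K ⊗ ℚ_S` is additively generated by the `x ⊗ a` with `x` integral. -/
theorem as_induction {C : AS S K → Prop} (h0 : C 0)
    (ht : ∀ (x : 𝓞 K) (a : QS S), C ((x : K) ⊗ₜ[ℚ] a))
    (hadd : ∀ α β, C α → C β → C (α + β)) : ∀ α, C α := by
  intro α
  induction α using TensorProduct.induction_on with
  | zero => exact h0
  | add α β hα hβ => exact hadd α β hα hβ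
  | tmul k a =>
    have hk := (NumberField.integralBasis K).sum_repr k
    rw [← hk, TensorProduct.sum_tmul]
    refine Finset.sum_induction _ C hadd h0 fun i _ => ?_
    rw [TensorProduct.smul_tmul, NumberField.integralBasis_apply]
    exact ht _ _

theorem AS.natCast_tmul (n : ℕ) (k : K) (a : QS S) :
    ((n : ℕ) : AS S K) * (k ⊗ₜ[ℚ] a) = k ⊗ₜ[ℚ] ((n : QS S) * a) := by
  have : ((n : ℕ) : AS S K) = (1 : K) ⊗ₜ[ℚ] ((n : ℕ) : QS S) := by
    rw [← map_natCast (asIncl S K) n]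
    rfl
  rw [this, Algebra.TensorProduct.tmul_mul_tmul, one_mul]

theorem AS.natCast_pow_tmul (n e : ℕ) (k : K) (a : QS S) :
    ((n : ℕ) : AS S K) ^ e * (k ⊗ₜ[ℚ] a) = k ⊗ₜ[ℚ] ((n : QS S) ^ e * a) := by
  induction e generalizing a with
  | zero => simp
  | succ e ih =>
    rw [pow_succ, mul_assoc, AS.natCast_tmul, ih, pow_succ, mul_assoc]

/-- **`n`-th roots in `K ⊗ ℚ_S`.** -/
theorem exists_pow_eq_AS {n : ℕ} (hn : 0 < n) (r : RS S K) :
    ∃ y : AS S K, y ^ n = 1 + ((PS S : ℕ) : AS S K) ^ (2 * n + 2) * phi S K r := by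
  obtain ⟨y, hy⟩ := exists_pow_eq_RS S K hn r
  refine ⟨phi S K y, ?_⟩
  rw [← map_pow, hy, map_add, map_one, map_mul, map_pow, map_natCast]

/-- `1 + P φ(w)` is a unit of `K ⊗ ℚ_S`. -/
theorem isUnit_one_add_AS (w : RS S K) :
    IsUnit (1 + ((PS S : ℕ) : AS S K) * phi S K w) := by
  have := (isUnit_one_add_RS S K w).map (phi S K)
  rwa [map_add, map_one, map_mul, map_natCast] at this

/-- Denominators in `K ⊗ ℚ_S`. -/
theorem exists_denom_AS (α : AS S K) :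
    ∃ e : ℕ, ∃ r : RS S K, ((PS S : ℕ) : AS S K) ^ e * α = phi S K r := by
  induction α using as_induction S K with
  | h0 => exact ⟨0, 0, by simp⟩
  | ht x a =>
    obtain ⟨e, he⟩ := exists_denom_QS S a
    obtain ⟨c, hc⟩ := he e le_rfl
    exact ⟨e, c ⊗ₜ[ℤ] x, by rw [AS.natCast_pow_tmul, hc, phi_tmul]⟩
  | hadd α β hα hβ =>
    obtain ⟨e1, r1, h1⟩ := hα
    obtain ⟨e2, r2, h2⟩ := hβ
    refine ⟨e1 + e2, ((PS S : ℕ) : RS S K) ^ e2 * r1 + ((PS S : ℕ) : RS S K) ^ e1 * r2, ?_⟩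
    rw [map_add, map_mul, map_mul, map_pow, map_pow, map_natCast, ← h1, ← h2]
    ring

/-- **Weak approximation**: `K` is dense in `K ⊗ ℚ_S`. -/
theorem exists_approx_AS (α : AS S K) (M : ℕ) :
    ∃ x : K, ∃ r : RS S K, α - asDiag S K x = ((PS S : ℕ) : AS S K) ^ M * phi S K r := by
  induction α using as_induction S K with
  | h0 => exact ⟨0, 0, by simp⟩
  | ht x a =>
    obtain ⟨ρ, c, hc⟩ := exists_approx_QS S a M
    refine ⟨ρ • (x : K), c ⊗ₜ[ℤ] x, ?_⟩
    rw [phi_tmul, AS.natCast_pow_tmul, ← hc, asDiag_apply, TensorProduct.tmul_sub,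
      TensorProduct.smul_tmul, Algebra.algebraMap_eq_smul_one]
  | hadd α β hα hβ =>
    obtain ⟨x1, r1, h1⟩ := hα
    obtain ⟨x2, r2, h2⟩ := hβ
    refine ⟨x1 + x2, r1 + r2, ?_⟩
    rw [map_add, map_add, mul_add, ← h1, ← h2]
    ring

end Fermat.Agent.S55.H963.Br
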