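import Fermat.Agent.S55.H963.BrHensel

/-!
# S55 / G-SI bridge (helper963): `P`-adic completeness, module form, and transfer

`MHaus P M`, `MPrec P M` for an abelian group `M` and an integer `P`: separation and
precompleteness for the filtration `Pᵏ M`.  Stable under additive equivalences and arbitrary
products; hold for `ℤ_[q]` when `P = q * unit`.
-/

set_option autoImplicit false
set_option linter.style.haveILetI false

namespace Fermat.Agent.S55.H963.Br

section Module

variable (P : ℤ) (M : Type*) [AddCommGroup M]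

/-- `⋂ₖ Pᵏ M = 0`. -/
def MHaus : Prop := ∀ y : M, (∀ k : ℕ, ∃ u : M, y = P ^ k • u) → y = 0

/-- Every `P`-adic Cauchy sequence of `M` has a limit. -/
def MPrec : Prop :=
  ∀ f : ℕ → M, (∀ k : ℕ, ∃ u : M, f (k + 1) - f k = P ^ k • u) →
    ∃ L : M, ∀ k : ℕ, ∃ u : M, L - f k = P ^ k • u

variable {P M}

theorem MHaus.of_addEquiv {N : Type*} [AddCommGroup N] (e : M ≃+ N) (h : MHaus P N) :
    MHaus P M := by
  intro y hy
  have : e y = 0 := h (e y) fun k => by
    obtain ⟨u, hu⟩ := hy k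
    exact ⟨e u, by rw [hu, map_zsmul]⟩
  simpa using this

theorem MPrec.of_addEquiv {N : Type*} [AddCommGroup N] (e : M ≃+ N) (h : MPrec P N) :
    MPrec P M := by
  intro f hf
  obtain ⟨L, hL⟩ := h (fun k => e (f k)) fun k => by
    obtain ⟨u, hu⟩ := hf k
    exact ⟨e u, by rw [← map_sub, hu, map_zsmul]⟩
  refine ⟨e.symm L, fun k => ?_⟩
  obtain ⟨u, hu⟩ := hL k
  refine ⟨e.symm u, ?_⟩
  apply e.injective
  rw [map_sub, map_zsmul, e.apply_symm_apply, e.apply_symm_apply, hu]

theorem MHaus.pi {ι : Type*} {N : ι → Type*} [∀ i, AddCommGroup (N i)]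
    (h : ∀ i, MHaus P (N i)) : MHaus P (∀ i, N i) := by
  intro y hy
  funext i
  refine h i (y i) fun k => ?_
  obtain ⟨u, hu⟩ := hy k
  exact ⟨u i, by rw [hu]; rfl⟩

theorem MPrec.pi {ι : Type*} {N : ι → Type*} [∀ i, AddCommGroup (N i)]
    (h : ∀ i, MPrec P (N i)) : MPrec P (∀ i, N i) := by
  intro f hf
  have h1 : ∀ i, ∃ L : N i, ∀ k : ℕ, ∃ u : N i, L - f k i = P ^ k • u := fun i =>
    h i (fun k => f k i) fun k => by
      obtain ⟨u, hu⟩ := hf k
      exact ⟨u i, by rw [← Pi.sub_apply, hu]; rfl⟩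
  choose L hL using h1
  refine ⟨L, fun k => ?_⟩
  choose u hu using fun i => hL i k
  exact ⟨u, funext fun i => by rw [Pi.sub_apply, hu i]; rfl⟩

end Module

section Ring

variable {R : Type*} [CommRing R]

theorem pHaus_of_mHaus {P : ℤ} (h : MHaus P R) : PHaus ((P : ℤ) : R) := by
  intro y hy
  refine h y fun k => ?_
  obtain ⟨u, hu⟩ := hy k
  exact ⟨u, by rw [hu, zsmul_eq_mul]; push_cast; rfl⟩

theorem pPrec_of_mPrec {P : ℤ} (h : MPrec P R) : PPrec ((P : ℤ) : R) := by
  intro f hf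
  obtain ⟨L, hL⟩ := h f fun k => by
    obtain ⟨u, hu⟩ := hf k
    exact ⟨u, by rw [hu, zsmul_eq_mul]; push_cast; rfl⟩
  refine ⟨L, fun k => ?_⟩
  obtain ⟨u, hu⟩ := hL k
  exact ⟨u, by rw [hu, zsmul_eq_mul]; push_cast; rfl⟩

theorem mHaus_of_pHaus {P : ℤ} (h : PHaus ((P : ℤ) : R)) : MHaus P R := by
  intro y hy
  refine h y fun k => ?_
  obtain ⟨u, hu⟩ := hy k
  exact ⟨u, by rw [hu, zsmul_eq_mul]; push_cast; rfl⟩

theorem mPrec_of_pPrec {P : ℤ} (h : PPrec ((P : ℤ) : R)) : MPrec P R := by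
  intro f hf
  obtain ⟨L, hL⟩ := h f fun k => by
    obtain ⟨u, hu⟩ := hf k
    exact ⟨u, by rw [hu, zsmul_eq_mul]; push_cast; rfl⟩
  refine ⟨L, fun k => ?_⟩
  obtain ⟨u, hu⟩ := hL k
  exact ⟨u, by rw [hu, zsmul_eq_mul]; push_cast; rfl⟩

theorem mem_span_pow_smul_top_iff (P : R) (k : ℕ) (y : R) :
    y ∈ ((Ideal.span {P}) ^ k • ⊤ : Submodule R R) ↔ P ^ k ∣ y := by
  rw [Ideal.span_singleton_pow, smul_eq_mul, Ideal.mul_top, Ideal.mem_span_singleton]

theorem pHaus_of_isAdicComplete (P : R) [IsAdicComplete (Ideal.span {P}) R] : PHaus P := by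
  intro y hy
  refine IsHausdorff.haus (I := Ideal.span {P}) inferInstance y fun k => ?_
  rw [SModEq.zero, mem_span_pow_smul_top_iff]
  exact hy k

theorem pPrec_of_isAdicComplete (P : R) [IsAdicComplete (Ideal.span {P}) R] : PPrec P := by
  intro f hf
  have hmn : ∀ m n : ℕ, m ≤ n → P ^ m ∣ f n - f m := by
    intro m n hmn
    induction n, hmn using Nat.le_induction with
    | base => simp
    | succ n hn ih =>
      have : f (n + 1) - f m = (f (n + 1) - f n) + (f n - f m) := by ring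
      rw [this]
      exact dvd_add (dvd_trans (pow_dvd_pow P hn) (hf n)) ih
  obtain ⟨L, hL⟩ := IsPrecomplete.prec (I := Ideal.span {P}) inferInstance (f := f)
    (fun {m n} h => by
      rw [SModEq.sub_mem, mem_span_pow_smul_top_iff]
      have := hmn m n h
      rw [← neg_sub]
      exact (dvd_neg).mpr this)
  refine ⟨L, fun k => ?_⟩
  have := hL k
  rw [SModEq.sub_mem, mem_span_pow_smul_top_iff] at this
  rw [← neg_sub]
  exact (dvd_neg).mpr this

end Ring

section Padic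

variable (q : ℕ) [Fact q.Prime]

theorem isAdicComplete_padicInt_span {P : ℤ_[q]} (hP : Associated (q : ℤ_[q]) P) :
    IsAdicComplete (Ideal.span {P}) ℤ_[q] := by
  have : Ideal.span {P} = IsLocalRing.maximalIdeal ℤ_[q] := by
    rw [PadicInt.maximalIdeal_eq_span_p, Ideal.span_singleton_eq_span_singleton]
    exact hP.symm
  rw [this]
  infer_instance

theorem mHaus_padicInt {P : ℤ} (hP : Associated (q : ℤ_[q]) ((P : ℤ) : ℤ_[q])) :
    MHaus P ℤ_[q] := by
  haveI := isAdicComplete_padicInt_span q hP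
  exact mHaus_of_pHaus (pHaus_of_isAdicComplete _)

theorem mPrec_padicInt {P : ℤ} (hP : Associated (q : ℤ_[q]) ((P : ℤ) : ℤ_[q])) :
    MPrec P ℤ_[q] := by
  haveI := isAdicComplete_padicInt_span q hP
  exact mPrec_of_pPrec (pPrec_of_isAdicComplete _)

end Padic

end Fermat.Agent.S55.H963.Br
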