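import Mathlib

/-!
# S55 / G-SI bridge (helper963): bounding a group of finite exponent by its finite quotients

If `A` is an abelian group killed by `n > 0` all of whose finite quotients have at most `d`
elements, then `A` is finite with at most `d` elements.
-/

set_option autoImplicit false

namespace Fermat.Agent.S55.H963.Br

theorem exists_injective_fin_of_not {A : Type*} (d : ℕ) (h : ¬ (Finite A ∧ Nat.card A ≤ d)) :
    ∃ f : Fin (d + 1) → A, Function.Injective f := by
  by_cases hfin : Finite A
  · have hcard : d < Nat.card A := by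
      by_contra hle
      exact h ⟨hfin, not_lt.mp hle⟩
    have _ : Fintype A := Fintype.ofFinite A
    rw [Nat.card_eq_fintype_card] at hcard
    have : Fintype.card (Fin (d + 1)) ≤ Fintype.card A := by
      rw [Fintype.card_fin]; exact hcard
    obtain ⟨e⟩ := Function.Embedding.nonempty_of_card_le this
    exact ⟨e, e.injective⟩
  · rw [not_finite_iff_infinite] at hfin
    exact ⟨fun i => Infinite.natEmbedding A i.1,
      fun i j hij => Fin.ext ((Infinite.natEmbedding A).injective hij)⟩

theorem finite_and_card_le_of_quotients {A : Type*} [AddCommGroup A] {n : ℕ} (hn : 0 < n)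
    (hA : ∀ a : A, n • a = 0) (d : ℕ)
    (h : ∀ B : AddSubgroup A, Finite (A ⧸ B) → Nat.card (A ⧸ B) ≤ d) :
    Finite A ∧ Nat.card A ≤ d := by
  classical
  by_contra hcon
  obtain ⟨f, hf⟩ := exists_injective_fin_of_not d hcon
  have hex : ∀ p : Fin (d + 1) × Fin (d + 1), ∃ c : A →+ AddCircle (1 : ℚ),
      p.1 ≠ p.2 → c (f p.1 - f p.2) ≠ 0 := by
    intro p
    by_cases hp : p.1 = p.2
    · exact ⟨0, fun h => absurd hp h⟩
    · have hne : f p.1 - f p.2 ≠ 0 := fun h0 => hp (hf (sub_eq_zero.mp h0))
      obtain ⟨c, hc⟩ := CharacterModule.exists_character_apply_ne_zero_of_ne_zero hne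
      exact ⟨c, fun _ => hc⟩
  choose c hc using hex
  let χ : A →+ (Fin (d + 1) × Fin (d + 1) → AddCircle (1 : ℚ)) := AddMonoidHom.pi c
  let B : AddSubgroup A := χ.ker
  have hT : {u : AddCircle (1 : ℚ) | n • u = 0}.Finite := AddCircle.finite_torsion (1 : ℚ) hn
  have hrange : (Set.range χ).Finite := by
    refine (Set.Finite.pi' (fun _ : Fin (d + 1) × Fin (d + 1) => hT)).subset ?_
    rintro _ ⟨a, rfl⟩ p
    show n • (c p a) = 0
    rw [← map_nsmul, hA a, map_zero]
  have hfinQ : Finite (A ⧸ B) := by
    have e : A ⧸ B ≃+ χ.range := QuotientAddGroup.quotientKerEquivRange χ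
    have : Finite χ.range := hrange.to_subtype
    exact Finite.of_equiv _ e.symm.toEquiv
  have hinj : Function.Injective (fun i : Fin (d + 1) => (QuotientAddGroup.mk (f i) : A ⧸ B)) := by
    intro i j hij
    by_contra hne
    have h1 : f i - f j ∈ B := by
      have := (QuotientAddGroup.eq (s := B)).mp hij
      have h2 : f i - f j = -(-f i + f j) := by abel
      rw [h2]
      exact B.neg_mem this
    have h2 : χ (f i - f j) = 0 := h1
    have h3 := congrFun h2 (i, j)
    exact hc (i, j) hne h3
  have h1 := Nat.card_le_card_of_injective _ hinj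
  rw [Nat.card_eq_fintype_card, Fintype.card_fin] at h1
  have h2 := h B hfinQ
  omega

/-- A submonoid of an abelian group of finite exponent is a subgroup. -/
def subgroupOfTorsion {A : Type*} [AddCommGroup A] (T : AddSubmonoid A) {n : ℕ} (hn : 0 < n)
    (hA : ∀ a : A, n • a = 0) : AddSubgroup A :=
  { T with
    neg_mem' := by
      intro a ha
      have h2 : (n - 1) • a + a = 0 := by
        rw [← succ_nsmul, Nat.sub_add_cancel hn]
        exact hA a
      have h1 : -a = (n - 1) • a := neg_eq_of_add_eq_zero_left h2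
      rw [h1]
      exact T.nsmul_mem ha _ }

theorem mem_subgroupOfTorsion {A : Type*} [AddCommGroup A] (T : AddSubmonoid A) {n : ℕ}
    (hn : 0 < n) (hA : ∀ a : A, n • a = 0) (a : A) :
    a ∈ subgroupOfTorsion T hn hA ↔ a ∈ T := Iff.rfl

end Fermat.Agent.S55.H963.Br
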