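import Fermat.Agent.S55.H963.RayL
import Fermat.Agent.S55.G.H357.SecondIneq

/-!
# S55 (helper963): the second inequality for ray data, unconditional

Combines the analytic second inequality of helper357 (`card_le_finrank_of_bounded`, which
assumes the boundedness of the ray class `L`-series) with RAY-N1 (`exists_LSum_bound`).

`RayDatum.card_le_finrank` : let `L / K` be an extension of number fields, `D` a ray datum of
`K` with finite class group `A` such that `ψ` is surjective and `ψ 𝔭 = 1` for every prime `𝔭`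
of `K` coprime to the modulus lying under a prime of `L` of prime absolute norm.
Then `#A ≤ [L : K]`.
-/

set_option autoImplicit false

namespace Fermat.Agent.S55.H963

open NumberField IsDedekindDomain

open scoped nonZeroDivisors

variable {K : Type*} [Field K] [NumberField K] {A : Type*} [CommGroup A]

namespace RayDatum

variable (D : RayDatum K A)

theorem psi_top : D.ψ ⊤ = 1 := by
  have h := D.map_principal 1 (by simp)
  rwa [Ideal.span_singleton_one] at h

open Classical in
/-- The completely multiplicative function `I ↦ χ(ψ I)` (zero on ideals not coprime to the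
modulus). -/
noncomputable def charHom (χ : A →* ℂˣ) : (Ideal (𝓞 K))⁰ →* ℂ where
  toFun I := if IsCoprime (I : Ideal (𝓞 K)) D.m then ((χ (D.ψ I) : ℂˣ) : ℂ) else 0
  map_one' := by
    have h1 : IsCoprime (((1 : (Ideal (𝓞 K))⁰) : Ideal (𝓞 K))) D.m := by
      rw [Submonoid.coe_one]
      exact isCoprime_one_left
    rw [if_pos h1, Submonoid.coe_one, Ideal.one_eq_top, D.psi_top, map_one, Units.val_one]
  map_mul' I J := by
    by_cases hI : IsCoprime (I : Ideal (𝓞 K)) D.m
    · by_cases hJ : IsCoprime (J : Ideal (𝓞 K)) D.m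
      · have hIJ : IsCoprime (((I * J : (Ideal (𝓞 K))⁰)) : Ideal (𝓞 K)) D.m := by
          rw [Submonoid.coe_mul]
          exact hI.mul_left hJ
        rw [if_pos hIJ, if_pos hI, if_pos hJ, Submonoid.coe_mul, D.map_mul _ _ hI hJ,
          _root_.map_mul, Units.val_mul]
      · have hIJ : ¬ IsCoprime (((I * J : (Ideal (𝓞 K))⁰)) : Ideal (𝓞 K)) D.m := by
          rw [Submonoid.coe_mul]
          exact fun h => hJ h.of_mul_left_right
        rw [if_neg hIJ, if_neg hJ, mul_zero]
    · have hIJ : ¬ IsCoprime (((I * J : (Ideal (𝓞 K))⁰)) : Ideal (𝓞 K)) D.m := by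
        rw [Submonoid.coe_mul]
        exact fun h => hI h.of_mul_left_left
      rw [if_neg hIJ, if_neg hI, zero_mul]

theorem charHom_of_coprime (χ : A →* ℂˣ) {I : (Ideal (𝓞 K))⁰}
    (hI : IsCoprime (I : Ideal (𝓞 K)) D.m) :
    D.charHom χ I = ((χ (D.ψ I) : ℂˣ) : ℂ) := by
  classical
  show (if IsCoprime (I : Ideal (𝓞 K)) D.m then ((χ (D.ψ I) : ℂˣ) : ℂ) else 0) = _
  rw [if_pos hI]

theorem charHom_of_not_coprime (χ : A →* ℂˣ) {I : (Ideal (𝓞 K))⁰}
    (hI : ¬ IsCoprime (I : Ideal (𝓞 K)) D.m) : D.charHom χ I = 0 := by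
  classical
  show (if IsCoprime (I : Ideal (𝓞 K)) D.m then ((χ (D.ψ I) : ℂˣ) : ℂ) else 0) = _
  rw [if_neg hI]

theorem norm_charHom_le [Finite A] (χ : A →* ℂˣ) (I : (Ideal (𝓞 K))⁰) :
    ‖D.charHom χ I‖ ≤ 1 := by
  by_cases hI : IsCoprime (I : Ideal (𝓞 K)) D.m
  · rw [D.charHom_of_coprime χ hI, norm_char χ]
  · rw [D.charHom_of_not_coprime χ hI, norm_zero]
    exact zero_le_one

/-- The primes dividing the modulus. -/
def badSet : Set (HeightOneSpectrum (𝓞 K)) := {v | ¬ IsCoprime v.asIdeal D.m}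

theorem badSet_finite : D.badSet.Finite := by
  refine (Ideal.finite_factors D.m_ne_bot).subset fun v hv => ?_
  rw [Set.mem_setOf_eq, Ideal.dvd_iff_le]
  by_contra hle
  apply hv
  rw [Ideal.isCoprime_iff_sup_eq]
  have hmax : v.asIdeal.IsMaximal := v.isMaximal
  by_contra htop
  have h1 : v.asIdeal ⊔ D.m = v.asIdeal := by
    by_contra hne
    exact htop (hmax.1.2 _ (lt_of_le_of_ne le_sup_left (Ne.symm hne)))
  exact hle (by rw [← h1]; exact le_sup_right)

/-- The `L`-series of helper357 coincides with `LSum`. -/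
theorem Lray_charHom (χ : A →* ℂˣ) (s : ℝ) :
    G.H357.Lray (D.charHom χ) s = D.LSum χ s := by
  unfold G.H357.Lray LSum
  let g : D.all → (Ideal (𝓞 K))⁰ := fun I => ⟨I.1, mem_nonZeroDivisors_of_ne_zero I.2.1⟩
  have hg : Function.Injective g := by
    intro I J h
    have h' : (I : Ideal (𝓞 K)) = (J : Ideal (𝓞 K)) :=
      congrArg (fun z : (Ideal (𝓞 K))⁰ => (z : Ideal (𝓞 K))) h
    exact Subtype.ext h'
  have hsupp : Function.support (fun I : (Ideal (𝓞 K))⁰ => G.H357.tw (D.charHom χ) s I) ⊆
      Set.range g := by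
    intro I hI
    rw [Function.mem_support, G.H357.tw_apply] at hI
    have hc : IsCoprime (I : Ideal (𝓞 K)) D.m := by
      by_contra hc
      rw [D.charHom_of_not_coprime χ hc, zero_mul] at hI
      exact hI rfl
    exact ⟨⟨I.1, nonZeroDivisors.coe_ne_zero I, hc⟩, Subtype.ext rfl⟩
  rw [← hg.tsum_eq hsupp]
  congr 1
  funext I
  rw [G.H357.tw_apply, D.charHom_of_coprime χ (I := g I) I.2.2]
  rfl

variable {L : Type*} [Field L] [NumberField L] [Algebra K L]

/-- **The second inequality for ray data** (universal norm index inequality, analytic proof). -/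
theorem card_le_finrank [Finite A] (hsurj : D.IsSurj)
    (hsplit : ∀ w : HeightOneSpectrum (𝓞 L), (Ideal.absNorm w.asIdeal).Prime →
      IsCoprime (w.asIdeal.under (𝓞 K)) D.m → D.ψ (w.asIdeal.under (𝓞 K)) = 1) :
    Nat.card A ≤ Module.finrank K L := by
  refine G.H357.card_le_finrank_of_bounded (K := K) (L := L) (fun χ => D.charHom χ)
    (fun χ I => D.norm_charHom_le χ I) (fun v => D.ψ v.asIdeal) D.badSet D.badSet_finite
    ?_ ?_ ?_ ?_
  · intro χ v hv
    have hc : IsCoprime v.asIdeal D.m := not_not.mp hv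
    exact D.charHom_of_coprime χ (I := Fermat.Agent.S14.H163.toI0 v) hc
  · intro χ v hv
    exact D.charHom_of_not_coprime χ (I := Fermat.Agent.S14.H163.toI0 v) hv
  · intro χ hχ
    obtain ⟨B, hB⟩ := D.exists_LSum_bound hsurj χ hχ
    exact ⟨B, fun s hs1 hs2 => by rw [D.Lray_charHom χ s]; exact hB s hs1 hs2⟩
  · intro w hw hwB
    exact hsplit w hw (not_not.mp hwB)

end RayDatum

end Fermat.Agent.S55.H963
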