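import Fermat.Agent.S55.H963.BrDiv
import Fermat.Agent.S55.H963.BrFinQuot
import Fermat.Agent.S55.H963.SecondIneqRay

/-!
# S55 / G-SI bridge (helper963): the ray datum attached to a subgroup of `C_S(K)`

For a subgroup `H ≤ C_S(K)` (helper421's model) containing the `n`-th powers, the map
`I ↦ class of (1, div^S I)` is a ray datum of modulus `(∏_{q ∈ S} q) ^ (2 n + 2)` with values in
`C_S(K) / H`, and it is surjective.
-/

set_option autoImplicit false
set_option linter.style.haveILetI false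
set_option linter.unusedSectionVars false
set_option linter.unusedVariables false

open scoped NumberField TensorProduct nonZeroDivisors

open IsDedekindDomain

noncomputable section

namespace Fermat.Agent.S55.H963

/-- Push-forward of a ray datum along a group homomorphism. -/
def RayDatum.map {K : Type*} [Field K] [NumberField K] {A A' : Type*} [CommGroup A]
    [CommGroup A'] (D : RayDatum K A) (f : A →* A') : RayDatum K A' where
  m := D.m
  m_ne_bot := D.m_ne_bot
  ψ I := f (D.ψ I)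
  map_mul I J hI hJ := by rw [D.map_mul I J hI hJ, _root_.map_mul]
  map_principal x hx := by rw [D.map_principal x hx, map_one]

theorem RayDatum.map_isSurj {K : Type*} [Field K] [NumberField K] {A A' : Type*} [CommGroup A]
    [CommGroup A'] (D : RayDatum K A) (f : A →* A') (hf : Function.Surjective f)
    (h : D.IsSurj) : (D.map f).IsSurj := by
  intro a'
  obtain ⟨a, rfl⟩ := hf a'
  obtain ⟨𝔠, h0, hc, hψ⟩ := h a
  exact ⟨𝔠, h0, hc, by show f (D.ψ 𝔠) = f a; rw [hψ]⟩

namespace Br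

open Fermat.Agent.S55.G

variable (S : Finset Nat.Primes) (K : Type) [Field K] [NumberField K]

/-- The modulus `(∏_{q ∈ S} q) ^ (2 n + 2)`. -/
def modulus (n : ℕ) : Ideal (𝓞 K) := Ideal.span {((PS S : ℕ) : 𝓞 K) ^ (2 * n + 2)}

theorem modulus_ne_bot (n : ℕ) : modulus S K n ≠ ⊥ := by
  unfold modulus
  rw [Ne, Ideal.span_singleton_eq_bot]
  exact pow_ne_zero _ (by exact_mod_cast (PS_pos S).ne')

theorem PS_mem_of_mem {I : Ideal (𝓞 K)} {q : Nat.Primes} (hq : q ∈ S)
    (h : ((q : ℕ) : 𝓞 K) ∈ I) : ((PS S : ℕ) : 𝓞 K) ∈ I := by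
  rw [PS_eq_mul hq, Nat.cast_mul]
  exact I.mul_mem_right _ h

theorem exists_mem_of_PS_mem {I : Ideal (𝓞 K)} (hI : I.IsPrime)
    (h : ((PS S : ℕ) : 𝓞 K) ∈ I) : ∃ q ∈ S, ((q : ℕ) : 𝓞 K) ∈ I := by
  unfold PS at h
  rw [Nat.cast_prod] at h
  haveI := hI
  exact Ideal.IsPrime.prod_mem_iff.mp h

theorem modulus_le_of_mem {I : Ideal (𝓞 K)} {q : Nat.Primes} (hq : q ∈ S)
    (h : ((q : ℕ) : 𝓞 K) ∈ I) (n : ℕ) : modulus S K n ≤ I := by
  unfold modulus
  rw [Ideal.span_singleton_le_iff_mem]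
  exact I.pow_mem_of_mem (PS_mem_of_mem S K hq h) _ (by omega)

/-- A prime coprime to the modulus is not above `S`. -/
theorem not_isAbove_of_isCoprime (v : HeightOneSpectrum (𝓞 K)) (n : ℕ)
    (h : IsCoprime v.asIdeal (modulus S K n)) : ¬ IsAbove S K v := by
  rintro ⟨q, hq, hqv⟩
  have hle := modulus_le_of_mem S K hq hqv n
  rw [Ideal.isCoprime_iff_sup_eq, sup_eq_left.mpr hle] at h
  exact v.isPrime.ne_top h

/-- A prime not above `S` is coprime to the modulus. -/
theorem isCoprime_of_not_isAbove (v : PrimeOut S K) (n : ℕ) :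
    IsCoprime v.1.asIdeal (modulus S K n) := by
  rw [Ideal.isCoprime_iff_sup_eq]
  by_contra htop
  have hmax : v.1.asIdeal.IsMaximal := v.1.isMaximal
  have h1 : v.1.asIdeal ⊔ modulus S K n = v.1.asIdeal := by
    by_contra hne
    exact htop (hmax.1.2 _ (lt_of_le_of_ne le_sup_left (Ne.symm hne)))
  have hle : modulus S K n ≤ v.1.asIdeal := by rw [← h1]; exact le_sup_right
  have hP : ((PS S : ℕ) : 𝓞 K) ^ (2 * n + 2) ∈ v.1.asIdeal :=
    hle (Ideal.subset_span (Set.mem_singleton _))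
  have hP' := v.1.isPrime.mem_of_pow_mem _ hP
  obtain ⟨q, hq, hqv⟩ := exists_mem_of_PS_mem S K v.1.isPrime hP'
  exact v.2 ⟨q, hq, hqv⟩

theorem modulus_ne_top (hS : S.Nonempty) (n : ℕ) : modulus S K n ≠ ⊤ := by
  intro htop
  obtain ⟨q, hq⟩ := hS
  have hu : IsUnit (((PS S : ℕ) : 𝓞 K) ^ (2 * n + 2)) := by
    unfold modulus at htop
    exact Ideal.span_singleton_eq_top.mp htop
  have hu' : IsUnit ((PS S : ℕ) : 𝓞 K) := (isUnit_pow_iff (by omega)).mp hu
  have hn := hu'.map (Algebra.norm ℤ)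
  have hnorm : Algebra.norm ℤ (((PS S : ℕ) : 𝓞 K)) =
      ((PS S : ℕ) : ℤ) ^ Fintype.card (Module.Free.ChooseBasisIndex ℤ (𝓞 K)) := by
    have := Algebra.norm_algebraMap_of_basis (NumberField.RingOfIntegers.basis K)
      ((PS S : ℕ) : ℤ)
    rwa [algebraMap_int_eq, eq_intCast, Int.cast_natCast] at this
  rw [hnorm] at hn
  have hcard : Fintype.card (Module.Free.ChooseBasisIndex ℤ (𝓞 K)) ≠ 0 := by
    have : Nonempty (Module.Free.ChooseBasisIndex ℤ (𝓞 K)) :=
      (NumberField.RingOfIntegers.basis K).index_nonempty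
    exact Fintype.card_ne_zero
  have hP1 := (isUnit_pow_iff hcard).mp hn
  have hP2 : (PS S : ℕ) = 1 := by
    have := Int.isUnit_iff.mp hP1
    rcases this with h | h
    · exact_mod_cast h
    · have : (0 : ℤ) ≤ ((PS S : ℕ) : ℤ) := Int.natCast_nonneg _
      omega
  have hq1 : (q : ℕ) ∣ 1 := by rw [← hP2]; exact dvd_PS hq
  exact q.2.one_lt.ne' (Nat.dvd_one.mp hq1)

variable {S K}

/-- The class map `J_S(K) × Div^S(K) → C_S(K) / H`. -/
def cl (H : AddSubgroup (CS S K)) : JD S K →+ CS S K ⧸ H :=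
  (QuotientAddGroup.mk' H).comp ((principal S K).mkQ.toAddMonoidHom)

theorem cl_surjective (H : AddSubgroup (CS S K)) : Function.Surjective (cl H) := by
  intro a
  obtain ⟨c, rfl⟩ := QuotientAddGroup.mk_surjective a
  obtain ⟨y, rfl⟩ := Submodule.Quotient.mk_surjective _ c
  exact ⟨y, rfl⟩

theorem cl_diag (H : AddSubgroup (CS S K)) (x : Additive Kˣ) : cl H (diagHom S K x) = 0 := by
  have h : (principal S K).mkQ (diagHom S K x) = 0 := by
    rw [Submodule.mkQ_apply, Submodule.Quotient.mk_eq_zero]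
    exact ⟨x, rfl⟩
  show QuotientAddGroup.mk' H ((principal S K).mkQ (diagHom S K x)) = 0
  rw [h, map_zero]

theorem nsmul_cl {n : ℕ} (H : AddSubgroup (CS S K)) (hpow : ∀ c : CS S K, n • c ∈ H)
    (a : CS S K ⧸ H) : n • a = 0 := by
  obtain ⟨c, rfl⟩ := QuotientAddGroup.mk_surjective a
  rw [← QuotientAddGroup.mk_nsmul]
  exact (QuotientAddGroup.eq_zero_iff _).mpr (hpow c)

/-- Units of `K ⊗ ℚ_S` congruent to `1` modulo `P ^ (2n+2)` are trivial in `C_S(K) / H`. -/
theorem cl_unit_eq_zero {n : ℕ} (hn : 0 < n) (H : AddSubgroup (CS S K))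
    (hpow : ∀ c : CS S K, n • c ∈ H) (u : (AS S K)ˣ) (r : RS S K)
    (hu : (u : AS S K) = 1 + ((PS S : ℕ) : AS S K) ^ (2 * n + 2) * phi S K r) :
    cl H (Additive.ofMul u, 0) = 0 := by
  obtain ⟨y, hy⟩ := exists_pow_eq_AS S K hn r
  rw [← hu] at hy
  have hyu : IsUnit y := (isUnit_pow_iff hn.ne').mp (hy ▸ u.isUnit)
  obtain ⟨yu, rfl⟩ := hyu
  have h1 : yu ^ n = u := Units.ext (by rw [Units.val_pow_eq_pow_val, hy])
  have h2 : ((Additive.ofMul u, 0) : JD S K) = n • ((Additive.ofMul yu, 0) : JD S K) := by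
    refine Prod.ext ?_ ?_
    · show Additive.ofMul u = n • Additive.ofMul yu
      rw [← h1]; rfl
    · show (0 : PrimeOut S K →₀ ℤ) = n • 0
      rw [smul_zero]
  rw [h2, map_nsmul]
  exact nsmul_cl H hpow _

variable (S K)

/-- The class map on ideals. -/
def psi (H : AddSubgroup (CS S K)) (I : Ideal (𝓞 K)) : Multiplicative (CS S K ⧸ H) :=
  open Classical in
  if I = ⊥ then 1 else Multiplicative.ofAdd (cl H (0, divS S K I))

variable {S K}

theorem psi_of_ne_bot (H : AddSubgroup (CS S K)) {I : Ideal (𝓞 K)} (hI : I ≠ ⊥) :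
    psi S K H I = Multiplicative.ofAdd (cl H (0, divS S K I)) := by
  unfold psi
  rw [if_neg hI]

theorem psi_bot (H : AddSubgroup (CS S K)) : psi S K H ⊥ = 1 := by
  unfold psi
  rw [if_pos rfl]

theorem ne_bot_of_isCoprime (hS : S.Nonempty) (n : ℕ) {I : Ideal (𝓞 K)}
    (hI : IsCoprime I (modulus S K n)) : I ≠ ⊥ := by
  rintro rfl
  rw [Ideal.isCoprime_iff_sup_eq, bot_sup_eq] at hI
  exact modulus_ne_top S K hS n hI

theorem cl_add_snd (H : AddSubgroup (CS S K)) (d d' : PrimeOut S K →₀ ℤ) :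
    cl H (0, d + d') = cl H (0, d) + cl H (0, d') := by
  rw [← map_add]
  congr 1
  exact Prod.ext (by simp) rfl

/-- The ray datum attached to `H`. -/
def datum (hS : S.Nonempty) {n : ℕ} (hn : 0 < n) (H : AddSubgroup (CS S K))
    (hpow : ∀ c : CS S K, n • c ∈ H) : RayDatum K (Multiplicative (CS S K ⧸ H)) where
  m := modulus S K n
  m_ne_bot := modulus_ne_bot S K n
  ψ := psi S K H
  map_mul I J hI hJ := by
    have hI0 := ne_bot_of_isCoprime hS n hI
    have hJ0 := ne_bot_of_isCoprime hS n hJ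
    have hIJ0 : I * J ≠ ⊥ := by
      rw [Ne, Ideal.mul_eq_bot]
      exact fun h => h.elim hI0 hJ0
    rw [psi_of_ne_bot H hI0, psi_of_ne_bot H hJ0, psi_of_ne_bot H hIJ0, divS_mul S K hI0 hJ0,
      cl_add_snd, ofAdd_add]
  map_principal x hx := by
    by_cases hx0 : x = 0
    · rw [hx0, Ideal.span_singleton_eq_bot.mpr rfl]
      exact psi_bot H
    have hxK : (x : K) ≠ 0 := by
      intro h
      apply hx0
      exact_mod_cast h
    have hI : (Ideal.span {x} : Ideal (𝓞 K)) ≠ ⊥ := by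
      rw [Ne, Ideal.span_singleton_eq_bot]; exact hx0
    rw [psi_of_ne_bot H hI, divS_span S K x hxK]
    -- `x = 1 + P ^ N z`
    obtain ⟨z, hz⟩ := Ideal.mem_span_singleton'.mp hx
    have hxz : x = 1 + ((PS S : ℕ) : 𝓞 K) ^ (2 * n + 2) * z := by
      have : x = 1 + (x - 1) := by ring
      rw [this, ← hz]; ring
    set xu : Kˣ := Units.mk0 (x : K) hxK with hxu
    set u : (AS S K)ˣ := Units.map ((asDiag S K : K →ₐ[ℚ] AS S K) : K →* AS S K) xu with hu
    have hucoe : (u : AS S K) = 1 + ((PS S : ℕ) : AS S K) ^ (2 * n + 2) *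
        phi S K ((1 : ZS S) ⊗ₜ[ℤ] z) := by
      have h1 : (u : AS S K) = asDiag S K (x : K) := rfl
      rw [h1, phi_tmul, AS.natCast_pow_tmul, asDiag_apply]
      have h2 : (x : K) = 1 + ((PS S : ℕ) : K) ^ (2 * n + 2) * (z : K) := by
        have := congrArg (algebraMap (𝓞 K) K) hxz
        simpa using this
      have h3 : zsToQs S 1 = 1 := map_one _
      rw [h3, mul_one]
      have h4 : ((z : K)) ⊗ₜ[ℚ] (((PS S : ℕ) : QS S) ^ (2 * n + 2)) =
          ((((PS S : ℕ) : K) ^ (2 * n + 2) * (z : K))) ⊗ₜ[ℚ] (1 : QS S) := by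
        have e1 : (((PS S : ℕ) : QS S) ^ (2 * n + 2)) =
            (((PS S : ℕ) : ℚ) ^ (2 * n + 2)) • (1 : QS S) := by
          rw [Algebra.smul_def, mul_one]; simp
        have e2 : (((PS S : ℕ) : K) ^ (2 * n + 2) * (z : K)) =
            (((PS S : ℕ) : ℚ) ^ (2 * n + 2)) • (z : K) := by
          rw [Algebra.smul_def]; simp
        rw [e1, e2, TensorProduct.smul_tmul]
      rw [h4, h2, TensorProduct.add_tmul]
      rfl
    have hcl := cl_unit_eq_zero hn H hpow u _ hucoe
    have hdiag := cl_diag H (Additive.ofMul xu)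
    have hsplit : ((0, ordHom S K (Additive.ofMul xu)) : JD S K) =
        diagHom S K (Additive.ofMul xu) - (Additive.ofMul u, 0) := by
      refine Prod.ext ?_ ?_
      · show (0 : Additive (AS S K)ˣ) = unitsDiag S K (Additive.ofMul xu) - Additive.ofMul u
        have : unitsDiag S K (Additive.ofMul xu) = Additive.ofMul u := rfl
        rw [this, sub_self]
      · show ordHom S K (Additive.ofMul xu) = ordHom S K (Additive.ofMul xu) - 0
        rw [sub_zero]
    rw [hsplit, map_sub, hcl, hdiag, sub_zero]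
    rfl

end Br

end Fermat.Agent.S55.H963
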