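import Fermat.Agent.S55.H963.BrAdele2

/-!
# S55 / G-SI bridge (helper963): the divisor prime to `S` of an ideal

`divS S K I ∈ Div^S(K) = ℤ[primes of K not above S]` for an ideal `I` of `𝓞 K`;
multiplicative, `divS (x) = div x` (helper421's `ordHom`), `divS 𝔭 = [𝔭]`.
-/

set_option autoImplicit false
set_option linter.style.haveILetI false
set_option linter.unusedSectionVars false
set_option linter.unusedVariables false

open scoped NumberField TensorProduct nonZeroDivisors

open IsDedekindDomain

noncomputable section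

namespace Fermat.Agent.S55.H963.Br

open Fermat.Agent.S55.G

variable (S : Finset Nat.Primes) (K : Type) [Field K] [NumberField K]

/-- The divisor prime to `S` of an ideal of `𝓞 K` (junk value `0` at `I = ⊥`). -/
def divS (I : Ideal (𝓞 K)) : PrimeOut S K →₀ ℤ :=
  Finsupp.ofSupportFinite
    (fun v : PrimeOut S K => FractionalIdeal.count K v.1 (I : FractionalIdeal (𝓞 K)⁰ K))
    ((FractionalIdeal.finite_factors (I : FractionalIdeal (𝓞 K)⁰ K)).preimage
      Subtype.val_injective.injOn)

theorem divS_apply (I : Ideal (𝓞 K)) (v : PrimeOut S K) :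
    divS S K I v = FractionalIdeal.count K v.1 (I : FractionalIdeal (𝓞 K)⁰ K) := rfl

theorem divS_mul {I J : Ideal (𝓞 K)} (hI : I ≠ ⊥) (hJ : J ≠ ⊥) :
    divS S K (I * J) = divS S K I + divS S K J := by
  ext v
  rw [Finsupp.add_apply, divS_apply, divS_apply, divS_apply, FractionalIdeal.coeIdeal_mul]
  exact FractionalIdeal.count_mul K v.1 (FractionalIdeal.coeIdeal_ne_zero.mpr hI)
    (FractionalIdeal.coeIdeal_ne_zero.mpr hJ)

theorem divS_top : divS S K ⊤ = 0 := by
  ext v
  rw [divS_apply, FractionalIdeal.coeIdeal_top, FractionalIdeal.count_one]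
  rfl

theorem divS_prime (v : PrimeOut S K) : divS S K v.1.asIdeal = Finsupp.single v 1 := by
  classical
  ext w
  rw [divS_apply, Finsupp.single_apply]
  by_cases h : v = w
  · rw [if_pos h, ← h, FractionalIdeal.count_self]
  · rw [if_neg h]
    exact FractionalIdeal.count_maximal_coprime K w.1 fun h' => h (Subtype.ext h')

theorem divS_span (x : 𝓞 K) (hx : (x : K) ≠ 0) :
    divS S K (Ideal.span {x}) = ordHom S K (Additive.ofMul (Units.mk0 (x : K) hx)) := by
  ext v
  have hx0 : x ≠ 0 := fun h => hx (by rw [h]; simp)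
  have hI : (Ideal.span {x} : Ideal (𝓞 K)) ≠ 0 := by
    rw [Ne, Submodule.zero_eq_bot, Ideal.span_singleton_eq_bot]
    exact hx0
  rw [divS_apply, ordHom_apply, ordAt_apply, FractionalIdeal.count_coe K v.1 hI]
  have h1 : v.1.valuation K ((Additive.toMul (Additive.ofMul (Units.mk0 (x : K) hx)) : Kˣ) : K)
      = v.1.intValuation x := by
    rw [toMul_ofMul, Units.val_mk0]
    exact HeightOneSpectrum.valuation_of_algebraMap v.1 x
  rw [h1, HeightOneSpectrum.intValuation_if_neg v.1 hx0, WithZero.log_exp, neg_neg]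

end Fermat.Agent.S55.H963.Br
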