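import Mathlib

/-!
# S55 / G-SI bridge (helper963): `n`-th roots by contraction in a `P`-adically complete ring

Pure algebra.  `R` a commutative ring, `P : R`.  `PHaus P` : `⋂ Pᵏ R = 0`;
`PPrec P` : every `P`-adic Cauchy sequence has a limit.  Under these hypotheses:

* `exists_fixed_point` : a map `Φ : R → R` with `P (Y - Y') ∣ Φ Y - Φ Y'` has a fixed point;
* `exists_pow_eq` : if `P ^ a = n * t` then every `1 + P ^ (2 a + 2) z` is an `n`-th power
  (of an element `≡ 1 mod P ^ (a+1)`);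
* `exists_mul_eq_one` : `1 + P w` is invertible.
-/

set_option autoImplicit false

namespace Fermat.Agent.S55.H963.Br

variable {R : Type*} [CommRing R]

/-- `P`-adic separation: `⋂ₖ Pᵏ R = 0`. -/
def PHaus (P : R) : Prop := ∀ y : R, (∀ k : ℕ, P ^ k ∣ y) → y = 0

/-- `P`-adic precompleteness: every sequence with `Pᵏ ∣ f (k+1) - f k` has a limit. -/
def PPrec (P : R) : Prop :=
  ∀ f : ℕ → R, (∀ k : ℕ, P ^ k ∣ f (k + 1) - f k) → ∃ L : R, ∀ k : ℕ, P ^ k ∣ L - f k

theorem exists_fixed_point {P : R} (hH : PHaus P) (hC : PPrec P) (Φ : R → R)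
    (hΦ : ∀ Y Y' : R, P * (Y - Y') ∣ Φ Y - Φ Y') : ∃ Y : R, Φ Y = Y := by
  let f : ℕ → R := fun k => Φ^[k] 0
  have hf : ∀ k : ℕ, P ^ k ∣ f (k + 1) - f k := by
    intro k
    induction k with
    | zero => simp
    | succ k ih =>
      have h1 : f (k + 1 + 1) - f (k + 1) = Φ (f (k + 1)) - Φ (f k) := by
        simp only [f, Function.iterate_succ_apply']
      rw [h1]
      refine dvd_trans ?_ (hΦ _ _)
      rw [pow_succ']
      exact mul_dvd_mul_left P ih
  obtain ⟨L, hL⟩ := hC f hf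
  refine ⟨L, ?_⟩
  have key : ∀ k : ℕ, P ^ k ∣ Φ L - L := by
    intro k
    have h1 : P ^ (k + 1) ∣ Φ L - Φ (f k) := by
      refine dvd_trans ?_ (hΦ _ _)
      rw [pow_succ']
      exact mul_dvd_mul_left P (hL k)
    have h2 : P ^ (k + 1) ∣ L - f (k + 1) := hL (k + 1)
    have h3 : Φ L - L = (Φ L - Φ (f k)) - (L - f (k + 1)) := by
      have : f (k + 1) = Φ (f k) := by simp only [f, Function.iterate_succ_apply']
      rw [this]; ring
    rw [h3]
    exact dvd_trans (pow_dvd_pow P (Nat.le_succ k)) (dvd_sub h1 h2)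
  exact sub_eq_zero.mp (hH _ key)

/-- The polynomial `q_n` with `(1 + X) ^ n = 1 + n X + X² q_n(X)`, as a function. -/
def binQ : ℕ → R → R
  | 0, _ => 0
  | (n + 1), X => n + (1 + X) * binQ n X

theorem one_add_pow_eq (n : ℕ) (X : R) :
    (1 + X) ^ n = 1 + n * X + X ^ 2 * binQ n X := by
  induction n with
  | zero => simp [binQ]
  | succ n ih =>
    rw [pow_succ, ih]
    simp only [binQ, Nat.cast_succ]
    ring

theorem sub_dvd_binQ_sub (n : ℕ) (X X' : R) : X - X' ∣ binQ n X - binQ n X' := by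
  induction n with
  | zero => simp [binQ]
  | succ n ih =>
    have : binQ (n + 1) X - binQ (n + 1) X' =
        (1 + X) * (binQ n X - binQ n X') + (X - X') * binQ n X' := by
      simp only [binQ]; ring
    rw [this]
    exact dvd_add (Dvd.dvd.mul_left ih _) (Dvd.intro _ rfl)

/-- **Hensel for `n`-th roots, non-simple root.** -/
theorem exists_pow_eq {P : R} (hH : PHaus P) (hC : PPrec P) (n a : ℕ) (t : R)
    (ht : P ^ a = n * t) (z : R) :
    ∃ Y : R, (1 + P ^ (a + 1) * Y) ^ n = 1 + P ^ (2 * a + 2) * z := by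
  set c : R := P ^ (a + 1) with hc
  let Φ : R → R := fun Y => t * P * (z - Y ^ 2 * binQ n (c * Y))
  have hΦ : ∀ Y Y' : R, P * (Y - Y') ∣ Φ Y - Φ Y' := by
    intro Y Y'
    have h1 : Y - Y' ∣ Y ^ 2 * binQ n (c * Y) - Y' ^ 2 * binQ n (c * Y') := by
      have e : Y ^ 2 * binQ n (c * Y) - Y' ^ 2 * binQ n (c * Y') =
          (Y - Y') * ((Y + Y') * binQ n (c * Y)) +
            Y' ^ 2 * (binQ n (c * Y) - binQ n (c * Y')) := by ring
      rw [e]
      refine dvd_add (Dvd.intro _ rfl) (Dvd.dvd.mul_left ?_ _)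
      refine dvd_trans ?_ (sub_dvd_binQ_sub n (c * Y) (c * Y'))
      exact ⟨c, by ring⟩
    obtain ⟨u, hu⟩ := h1
    refine ⟨-(t * u), ?_⟩
    simp only [Φ]
    linear_combination (-(t * P)) * hu
  obtain ⟨Y, hY⟩ := exists_fixed_point hH hC Φ hΦ
  refine ⟨Y, ?_⟩
  rw [one_add_pow_eq]
  have hcc : c = (n : R) * t * P := by
    rw [hc, pow_succ, ht]
  have hc2 : P ^ (2 * a + 2) = c ^ 2 := by
    rw [hc, ← pow_mul]; congr 1; ring
  rw [hc2]
  have hY' : Y = t * P * (z - Y ^ 2 * binQ n (c * Y)) := hY.symm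
  have : (n : R) * (c * Y) = c ^ 2 * z - (c * Y) ^ 2 * binQ n (c * Y) := by
    calc (n : R) * (c * Y) = c * ((n : R) * Y) := by ring
      _ = c * ((n : R) * (t * P * (z - Y ^ 2 * binQ n (c * Y)))) := by rw [← hY']
      _ = c * (((n : R) * t * P) * (z - Y ^ 2 * binQ n (c * Y))) := by ring
      _ = c * (c * (z - Y ^ 2 * binQ n (c * Y))) := by rw [← hcc]
      _ = c ^ 2 * z - (c * Y) ^ 2 * binQ n (c * Y) := by ring
  linear_combination this

/-- `1 + P w` is invertible in a `P`-adically complete ring. -/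
theorem exists_mul_eq_one {P : R} (hH : PHaus P) (hC : PPrec P) (w : R) :
    ∃ u : R, (1 + P * w) * u = 1 := by
  obtain ⟨u, hu⟩ := exists_fixed_point hH hC (fun u => 1 - P * w * u) (fun Y Y' => by
    refine ⟨-w, ?_⟩
    ring)
  exact ⟨u, by linear_combination -hu⟩

end Fermat.Agent.S55.H963.Br
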