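import Fermat.Agent.S55.H963.BrComplete
import Fermat.Agent.S55.G.Defs

/-!
# S55 / G-SI bridge (helper963): the complete ring `ℤ_S ⊗ 𝓞 K`

`ZS S = ∏_{q ∈ S} ℤ_q`, `PS S = ∏_{q ∈ S} q`, `RS S K = ZS S ⊗[ℤ] 𝓞 K`.
`RS S K` is `PS S`-adically separated and complete, and `n ∣ (PS S) ^ n` in it.
-/

set_option autoImplicit false
set_option linter.style.haveILetI false
set_option linter.unusedSectionVars false

open scoped NumberField TensorProduct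

noncomputable section

namespace Fermat.Agent.S55.H963.Br

open Fermat.Agent.S55.G

/-- `ℤ_q` for a bundled prime. -/
abbrev Zq (q : Nat.Primes) : Type := @PadicInt (q : ℕ) ⟨q.2⟩

/-- `ℤ_S = ∏_{q ∈ S} ℤ_q`. -/
def ZS (S : Finset Nat.Primes) : Type := ∀ q : S, Zq q.1

instance ZS.instCommRing (S : Finset Nat.Primes) : CommRing (ZS S) :=
  inferInstanceAs (CommRing (∀ q : S, Zq q.1))

/-- The product of the primes in `S`. -/
def PS (S : Finset Nat.Primes) : ℕ := ∏ q ∈ S, (q : ℕ)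

theorem PS_pos (S : Finset Nat.Primes) : 0 < PS S :=
  Finset.prod_pos fun q _ => q.2.pos

theorem dvd_PS {S : Finset Nat.Primes} {q : Nat.Primes} (hq : q ∈ S) : (q : ℕ) ∣ PS S :=
  Finset.dvd_prod_of_mem (fun q : Nat.Primes => (q : ℕ)) hq

theorem PS_eq_mul {S : Finset Nat.Primes} {q : Nat.Primes} (hq : q ∈ S) :
    PS S = (q : ℕ) * ∏ r ∈ S.erase q, (r : ℕ) := by
  unfold PS
  rw [Finset.mul_prod_erase S (fun q : Nat.Primes => (q : ℕ)) hq]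

theorem coprime_prod_erase {S : Finset Nat.Primes} {q : Nat.Primes} :
    Nat.Coprime (q : ℕ) (∏ r ∈ S.erase q, (r : ℕ)) := by
  refine Nat.Coprime.prod_right fun r hr => ?_
  rw [Nat.coprime_primes q.2 r.2]
  intro h
  exact (Finset.ne_of_mem_erase hr) (Subtype.ext h.symm)

/-- In `ℤ_q`, `q ∈ S`, the integer `PS S` is `q` times a unit. -/
theorem associated_PS {S : Finset Nat.Primes} {q : Nat.Primes} (hq : q ∈ S) :
    letI : Fact (q : ℕ).Prime := ⟨q.2⟩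
    Associated ((q : ℕ) : ℤ_[(q : ℕ)]) (((PS S : ℕ) : ℤ) : ℤ_[(q : ℕ)]) := by
  letI : Fact (q : ℕ).Prime := ⟨q.2⟩
  have hu : IsUnit (((∏ r ∈ S.erase q, (r : ℕ) : ℕ)) : ℤ_[(q : ℕ)]) := by
    rw [PadicInt.isUnit_iff, PadicInt.norm_natCast_eq_one_iff]
    exact coprime_prod_erase
  obtain ⟨u, hu⟩ := hu
  refine ⟨u, ?_⟩
  rw [hu, Int.cast_natCast, PS_eq_mul hq, Nat.cast_mul]

theorem mHaus_ZS (S : Finset Nat.Primes) : MHaus (PS S : ℤ) (ZS S) :=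
  MHaus.pi (N := fun q : S => Zq q.1) fun q =>
    letI : Fact ((q.1 : Nat.Primes) : ℕ).Prime := ⟨q.1.2⟩
    mHaus_padicInt _ (associated_PS q.2)

theorem mPrec_ZS (S : Finset Nat.Primes) : MPrec (PS S : ℤ) (ZS S) :=
  MPrec.pi (N := fun q : S => Zq q.1) fun q =>
    letI : Fact ((q.1 : Nat.Primes) : ℕ).Prime := ⟨q.1.2⟩
    mPrec_padicInt _ (associated_PS q.2)

/-- `n` divides `q ^ n` in `ℤ_q`... more precisely `n ∣ (PS S) ^ n` in `ℤ_q` for `q ∈ S`. -/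
theorem natCast_dvd_PS_pow_padic {S : Finset Nat.Primes} {q : Nat.Primes} (hq : q ∈ S)
    {n : ℕ} (hn : 0 < n) :
    letI : Fact (q : ℕ).Prime := ⟨q.2⟩
    (n : ℤ_[(q : ℕ)]) ∣ ((PS S : ℕ) : ℤ_[(q : ℕ)]) ^ n := by
  letI : Fact (q : ℕ).Prime := ⟨q.2⟩
  obtain ⟨v, m, hm, rfl⟩ := Nat.exists_eq_pow_mul_and_not_dvd hn.ne' (q : ℕ) q.2.ne_one
  set N := (q : ℕ) ^ v * m with hN
  have hu : IsUnit ((m : ℕ) : ℤ_[(q : ℕ)]) := by
    rw [PadicInt.isUnit_iff, PadicInt.norm_natCast_eq_one_iff]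
    exact (Nat.Prime.coprime_iff_not_dvd q.2).mpr hm
  have hvN : v ≤ N := by
    have h1 : v < (q : ℕ) ^ v := Nat.lt_pow_self q.2.one_lt
    have hm0 : 0 < m := Nat.pos_of_ne_zero fun h => hm (h ▸ dvd_zero _)
    calc v ≤ (q : ℕ) ^ v := h1.le
      _ ≤ (q : ℕ) ^ v * m := Nat.le_mul_of_pos_right _ hm0
  have h1 : ((N : ℕ) : ℤ_[(q : ℕ)]) ∣ ((q : ℕ) : ℤ_[(q : ℕ)]) ^ v := by
    rw [hN, Nat.cast_mul, Nat.cast_pow]
    exact (hu.mul_right_dvd).mpr dvd_rfl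
  have h2 : ((q : ℕ) : ℤ_[(q : ℕ)]) ^ v ∣ ((PS S : ℕ) : ℤ_[(q : ℕ)]) ^ N := by
    refine dvd_trans (pow_dvd_pow _ hvN) (pow_dvd_pow_of_dvd ?_ N)
    exact Nat.cast_dvd_cast (dvd_PS hq)
  exact dvd_trans h1 h2

theorem exists_PS_pow_eq_ZS (S : Finset Nat.Primes) {n : ℕ} (hn : 0 < n) :
    ∃ t : ZS S, ((PS S : ℕ) : ZS S) ^ n = (n : ZS S) * t := by
  choose t ht using fun q : S => natCast_dvd_PS_pow_padic q.2 hn
  exact ⟨t, funext fun q => ht q⟩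

variable (S : Finset Nat.Primes) (K : Type) [Field K] [NumberField K]

/-- The complete ring `ℤ_S ⊗ 𝓞 K`. -/
abbrev RS : Type := ZS S ⊗[ℤ] 𝓞 K

/-- The additive equivalence `ℤ_S ⊗ 𝓞 K ≃ (ℤ_S)^d` given by an integral basis. -/
def rsEquiv : RS S K ≃+ (Module.Free.ChooseBasisIndex ℤ (𝓞 K) → ZS S) :=
  ((Algebra.TensorProduct.basis (ZS S) (NumberField.RingOfIntegers.basis K)).equivFun).toAddEquiv

theorem mHaus_RS : MHaus (PS S : ℤ) (RS S K) :=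
  MHaus.of_addEquiv (rsEquiv S K) (MHaus.pi fun _ => mHaus_ZS S)

theorem mPrec_RS : MPrec (PS S : ℤ) (RS S K) :=
  MPrec.of_addEquiv (rsEquiv S K) (MPrec.pi fun _ => mPrec_ZS S)

theorem pHaus_RS : PHaus ((PS S : ℕ) : RS S K) := by
  have := pHaus_of_mHaus (R := RS S K) (mHaus_RS S K)
  rwa [Int.cast_natCast] at this

theorem pPrec_RS : PPrec ((PS S : ℕ) : RS S K) := by
  have := pPrec_of_mPrec (R := RS S K) (mPrec_RS S K)
  rwa [Int.cast_natCast] at this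

theorem exists_PS_pow_eq_RS {n : ℕ} (hn : 0 < n) :
    ∃ t : RS S K, ((PS S : ℕ) : RS S K) ^ n = (n : RS S K) * t := by
  obtain ⟨t, ht⟩ := exists_PS_pow_eq_ZS S hn
  refine ⟨algebraMap (ZS S) (RS S K) t, ?_⟩
  have := congrArg (algebraMap (ZS S) (RS S K)) ht
  rwa [map_pow, map_mul, map_natCast, map_natCast] at this

/-- **`n`-th roots in `ℤ_S ⊗ 𝓞 K`.** -/
theorem exists_pow_eq_RS {n : ℕ} (hn : 0 < n) (z : RS S K) :
    ∃ y : RS S K, y ^ n = 1 + ((PS S : ℕ) : RS S K) ^ (2 * n + 2) * z := by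
  obtain ⟨t, ht⟩ := exists_PS_pow_eq_RS S K hn
  obtain ⟨Y, hY⟩ := exists_pow_eq (pHaus_RS S K) (pPrec_RS S K) n n t ht z
  exact ⟨_, hY⟩

/-- `1 + P w` is a unit of `ℤ_S ⊗ 𝓞 K`. -/
theorem isUnit_one_add_RS (w : RS S K) : IsUnit (1 + ((PS S : ℕ) : RS S K) * w) := by
  obtain ⟨u, hu⟩ := exists_mul_eq_one (pHaus_RS S K) (pPrec_RS S K) w
  exact IsUnit.of_mul_eq_one _ hu

end Fermat.Agent.S55.H963.Br
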