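import Fermat.Agent.S55.H963.Below

/-!
# S55 / leaf RAY-N1 (helper963): ideal classes, coprime representatives, translation by an ideal
-/

set_option autoImplicit false

namespace Fermat.Agent.S55.H963

open NumberField

open scoped nonZeroDivisors

variable {K : Type*} [Field K] [NumberField K]

/-- The class of an ideal (`1` for the zero ideal). -/
noncomputable def cl (I : Ideal (𝓞 K)) : ClassGroup (𝓞 K) :=
  open Classical in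
  if h : I ≠ ⊥ then ClassGroup.mk0 ⟨I, mem_nonZeroDivisors_iff_ne_zero.mpr h⟩ else 1

theorem cl_of_ne_bot {I : Ideal (𝓞 K)} (h : I ≠ ⊥) :
    cl I = ClassGroup.mk0 ⟨I, mem_nonZeroDivisors_iff_ne_zero.mpr h⟩ := by
  unfold cl
  rw [dif_pos h]

theorem cl_mul {I J : Ideal (𝓞 K)} (hI : I ≠ ⊥) (hJ : J ≠ ⊥) : cl (I * J) = cl I * cl J := by
  have hIJ : I * J ≠ ⊥ := mul_ne_zero hI hJ
  rw [cl_of_ne_bot hI, cl_of_ne_bot hJ, cl_of_ne_bot hIJ, ← map_mul]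
  rfl

theorem cl_eq_one_iff {I : Ideal (𝓞 K)} (hI : I ≠ ⊥) : cl I = 1 ↔ Submodule.IsPrincipal I := by
  rw [cl_of_ne_bot hI]
  exact ClassGroup.mk0_eq_one_iff _

theorem cl_surjective (C : ClassGroup (𝓞 K)) : ∃ I : Ideal (𝓞 K), I ≠ ⊥ ∧ cl I = C := by
  obtain ⟨⟨I, hI⟩, rfl⟩ := ClassGroup.mk0_surjective C
  have hI' : I ≠ ⊥ := mem_nonZeroDivisors_iff_ne_zero.mp hI
  exact ⟨I, hI', cl_of_ne_bot hI'⟩

/-- For nonzero ideals `J`, `m` there is an ideal `𝔟` coprime to `m` with `J * 𝔟` principal. -/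
theorem exists_coprime_mul_principal (J m : Ideal (𝓞 K)) (hJ : J ≠ ⊥) (hm : m ≠ ⊥) :
    ∃ 𝔟 : Ideal (𝓞 K), IsCoprime 𝔟 m ∧ Submodule.IsPrincipal (J * 𝔟) := by
  have h1 : J * m ≤ J := Ideal.mul_le_left
  have h2 : J * m ≠ 0 := mul_ne_zero hJ hm
  obtain ⟨a, ha⟩ := IsDedekindDomain.exists_sup_span_eq h1 h2
  have haJ : Ideal.span {a} ≤ J := by
    rw [← ha]
    exact le_sup_right
  obtain ⟨𝔟, h𝔟⟩ := Ideal.dvd_iff_le.mpr haJ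
  refine ⟨𝔟, ?_, ?_⟩
  · rw [Ideal.isCoprime_iff_sup_eq]
    have h3 : J * (𝔟 ⊔ m) = J * ⊤ := by
      rw [Ideal.mul_sup, ← h𝔟, Ideal.mul_top, sup_comm]
      exact ha
    exact mul_left_cancel₀ hJ h3
  · rw [← h𝔟]
    exact ⟨⟨a, rfl⟩⟩

/-- Every ideal class contains a nonzero ideal coprime to a given nonzero ideal. -/
theorem exists_coprime_rep (m : Ideal (𝓞 K)) (hm : m ≠ ⊥) (C : ClassGroup (𝓞 K)) :
    ∃ 𝔟 : Ideal (𝓞 K), 𝔟 ≠ ⊥ ∧ IsCoprime 𝔟 m ∧ cl 𝔟 = C := by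
  by_cases hmtop : m = ⊤
  · obtain ⟨I, hI, hIC⟩ := cl_surjective C
    refine ⟨I, hI, ?_, hIC⟩
    rw [hmtop, Ideal.isCoprime_iff_sup_eq]
    simp
  · obtain ⟨J, hJ, hJC⟩ := cl_surjective C⁻¹
    obtain ⟨𝔟, h𝔟m, h𝔟p⟩ := exists_coprime_mul_principal J m hJ hm
    have h𝔟 : 𝔟 ≠ ⊥ := by
      rintro rfl
      rw [Ideal.isCoprime_iff_sup_eq, bot_sup_eq] at h𝔟m
      exact hmtop h𝔟m
    refine ⟨𝔟, h𝔟, h𝔟m, ?_⟩
    have h1 : cl (J * 𝔟) = 1 := (cl_eq_one_iff (mul_ne_zero hJ h𝔟)).mpr h𝔟p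
    rw [cl_mul hJ h𝔟, hJC] at h1
    exact (inv_mul_eq_one.mp h1).symm

/-- **Translation by an ideal**: if multiplication by `𝔟 ≠ 0` maps `Z` onto `Z'` then the
partial zeta sums over `Z` and `Z'` differ by the factor `N(𝔟)^s`. -/
theorem tsum_mul_ideal (𝔟 : Ideal (𝓞 K)) (h𝔟 : 𝔟 ≠ ⊥) (Z Z' : Set (Ideal (𝓞 K)))
    (hZ : ∀ I ∈ Z, I * 𝔟 ∈ Z') (hZ' : ∀ J ∈ Z', ∃ I ∈ Z, I * 𝔟 = J) (s : ℝ) :
    ∑' I : Z, (Ideal.absNorm (I : Ideal (𝓞 K)) : ℝ) ^ (-s) =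
      (Ideal.absNorm 𝔟 : ℝ) ^ s * ∑' J : Z', (Ideal.absNorm (J : Ideal (𝓞 K)) : ℝ) ^ (-s) := by
  have hinj : Function.Injective (fun I : Z => (⟨(I : Ideal (𝓞 K)) * 𝔟, hZ I I.2⟩ : Z')) := by
    intro I I' h
    have h' : (I : Ideal (𝓞 K)) * 𝔟 = (I' : Ideal (𝓞 K)) * 𝔟 := congrArg Subtype.val h
    exact Subtype.ext (mul_right_cancel₀ h𝔟 h')
  have hsurj : Function.Surjective (fun I : Z => (⟨(I : Ideal (𝓞 K)) * 𝔟, hZ I I.2⟩ : Z')) := by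
    rintro ⟨J, hJ⟩
    obtain ⟨I, hI, rfl⟩ := hZ' J hJ
    exact ⟨⟨I, hI⟩, rfl⟩
  let e : Z ≃ Z' := Equiv.ofBijective _ ⟨hinj, hsurj⟩
  have hN : (0 : ℝ) < Ideal.absNorm 𝔟 := by
    have : Ideal.absNorm 𝔟 ≠ 0 := by
      rw [Ne, Ideal.absNorm_eq_zero_iff]
      exact h𝔟
    exact_mod_cast Nat.pos_of_ne_zero this
  rw [← e.tsum_eq, ← tsum_mul_left]
  congr 1
  funext I
  show _ = _ * (Ideal.absNorm ((I : Ideal (𝓞 K)) * 𝔟) : ℝ) ^ (-s)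
  rw [map_mul, Nat.cast_mul, Real.mul_rpow (Nat.cast_nonneg _) (Nat.cast_nonneg _),
    mul_comm ((Ideal.absNorm (I : Ideal (𝓞 K)) : ℝ) ^ (-s)), ← mul_assoc,
    ← Real.rpow_add hN, add_neg_cancel, Real.rpow_zero, one_mul]

/-- Summability transfers along translation by an ideal. -/
theorem summable_of_mul_ideal (𝔟 : Ideal (𝓞 K)) (h𝔟 : 𝔟 ≠ ⊥) (Z Z' : Set (Ideal (𝓞 K)))
    (hZ : ∀ I ∈ Z, I * 𝔟 ∈ Z') (s : ℝ)
    (hsum : Summable fun J : Z' => (Ideal.absNorm (J : Ideal (𝓞 K)) : ℝ) ^ (-s)) :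
    Summable fun I : Z => (Ideal.absNorm (I : Ideal (𝓞 K)) : ℝ) ^ (-s) := by
  have hinj : Function.Injective (fun I : Z => (⟨(I : Ideal (𝓞 K)) * 𝔟, hZ I I.2⟩ : Z')) := by
    intro I I' h
    have h' : (I : Ideal (𝓞 K)) * 𝔟 = (I' : Ideal (𝓞 K)) * 𝔟 := congrArg Subtype.val h
    exact Subtype.ext (mul_right_cancel₀ h𝔟 h')
  have hN : (0 : ℝ) < Ideal.absNorm 𝔟 := by
    have : Ideal.absNorm 𝔟 ≠ 0 := by
      rw [Ne, Ideal.absNorm_eq_zero_iff]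
      exact h𝔟
    exact_mod_cast Nat.pos_of_ne_zero this
  have h1 := (hsum.comp_injective hinj).mul_left ((Ideal.absNorm 𝔟 : ℝ) ^ s)
  refine h1.congr fun I => ?_
  show _ * (Ideal.absNorm ((I : Ideal (𝓞 K)) * 𝔟) : ℝ) ^ (-s) = _
  rw [map_mul, Nat.cast_mul, Real.mul_rpow (Nat.cast_nonneg _) (Nat.cast_nonneg _),
    mul_comm ((Ideal.absNorm (I : Ideal (𝓞 K)) : ℝ) ^ (-s)), ← mul_assoc,
    ← Real.rpow_add hN, add_neg_cancel, Real.rpow_zero, one_mul]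

end Fermat.Agent.S55.H963
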