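import Fermat.Agent.S55.H963.RayBound
import Fermat.Agent.S14.H74.Main

/-!
# S55 / leaf RAY-N1 (helper963): the concrete smoothing kernel

The abstract `UnitKernel` is instantiated by the tent-smoothed summand `FS` of the landed
S14 block N1 (helper74), giving the unconditional statement
`RayDatum.exists_zeta_sub_bound'`.
-/

set_option autoImplicit false

namespace Fermat.Agent.S55.H963

open NumberField NumberField.Units NumberField.mixedEmbedding

variable (K : Type*) [Field K] [NumberField K]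

theorem norm_mixedEmbedding_eq_absNorm (x : 𝓞 K) :
    mixedEmbedding.norm (mixedEmbedding K (x : K)) = (Ideal.absNorm (Ideal.span {x}) : ℝ) := by
  rw [S14.H74.mixedEmbedding_norm_coe, Ideal.absNorm_span_singleton, Nat.cast_natAbs,
    Int.cast_abs]

theorem hasSum_FS_unit_mul (s : ℝ) {x : 𝓞 K} (hx : x ≠ 0) :
    HasSum (fun u : (𝓞 K)ˣ => S14.H74.FS K s ((u : 𝓞 K) * x))
      ((torsionOrder K : ℝ) * (Ideal.absNorm (Ideal.span {x}) : ℝ) ^ (-s)) := by
  have hN : mixedEmbedding.norm (mixedEmbedding K (x : K)) ≠ 0 := by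
    rw [norm_mixedEmbedding_eq_absNorm]
    have : Ideal.absNorm (Ideal.span {x}) ≠ 0 := by
      rw [Ne, Ideal.absNorm_eq_zero_iff, Ideal.span_singleton_eq_bot]
      exact hx
    exact_mod_cast this
  have h := (S14.H74.hasSum_rho_unit_smul (K := K) hN).mul_right
    ((Ideal.absNorm (Ideal.span {x}) : ℝ) ^ (-s))
  have e : (fun u : (𝓞 K)ˣ => S14.H74.FS K s ((u : 𝓞 K) * x)) =
      fun u : (𝓞 K)ˣ => S14.H74.rho K (u • mixedEmbedding K (x : K)) *
        (Ideal.absNorm (Ideal.span {x}) : ℝ) ^ (-s) := by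
    funext u
    unfold S14.H74.FS S14.H74.fS
    rw [S14.H74.mixedEmbedding_unit_mul, norm_unit_smul, norm_mixedEmbedding_eq_absNorm]
  rw [e]
  exact h

/-- The concrete smoothing kernel (tent partition of unity of S14/N1). -/
noncomputable def kernel74 : UnitKernel K where
  F := S14.H74.FS K
  w := (torsionOrder K : ℝ)
  w_pos := Nat.cast_pos.mpr (torsionOrder_pos K)
  nonneg := S14.H74.FS_nonneg
  map_zero := S14.H74.FS_zero
  summable := fun _ hs => S14.H74.summable_FS hs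
  orbit := fun s _ _ hx => hasSum_FS_unit_mul K s hx
  shift := fun t => by
    obtain ⟨g, hg, -, hgb⟩ := S14.H74.exists_dominating (K := K) t
    exact ⟨g, hg, fun s hs1 hs2 y => hgb s hs1.le hs2 y⟩

theorem kernel74_total (s : ℝ) : (kernel74 K).total s = ∑' x : 𝓞 K, S14.H74.FS K s x := rfl

/-- Growth of the total smoothed sum. -/
theorem kernel74_growth :
    ∃ G : ℝ, ∀ s : ℝ, 1 < s → s ≤ 2 → (s - 1) * (kernel74 K).total s ≤ G := by
  obtain ⟨Z, hZ0, hZ⟩ := S14.H74.classZeta_le K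
  refine ⟨(torsionOrder K : ℝ) * Z, fun s hs1 hs2 => ?_⟩
  rw [kernel74_total, ← S14.H74.torsionOrder_mul_classZeta_one K hs1]
  have h1 := hZ s hs1 hs2 1
  have hs0 : 0 < s - 1 := by linarith
  have hw : (0 : ℝ) ≤ torsionOrder K := Nat.cast_nonneg _
  have h2 : (s - 1) * S14.H74.classZeta K 1 s ≤ Z := by
    have := mul_le_mul_of_nonneg_left h1 hs0.le
    rwa [mul_div_cancel₀ _ hs0.ne'] at this
  calc (s - 1) * ((torsionOrder K : ℝ) * S14.H74.classZeta K 1 s)
      = (torsionOrder K : ℝ) * ((s - 1) * S14.H74.classZeta K 1 s) := by ring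
    _ ≤ (torsionOrder K : ℝ) * Z := mul_le_mul_of_nonneg_left h2 hw

variable {K} {A : Type*} [CommGroup A]

namespace RayDatum

variable (D : RayDatum K A)

/-- **RAY-N1** (unconditional): the partial zeta functions of the classes `a` and `a ψ(𝔠)`
differ by a bounded function on `(1, 2]`. -/
theorem exists_zeta_sub_bound' (𝔠 : Ideal (𝓞 K)) (h𝔠 : 𝔠 ≠ ⊥) (h𝔠m : IsCoprime 𝔠 D.m) (a : A) :
    ∃ B : ℝ, ∀ s : ℝ, 1 < s → s ≤ 2 → |D.zeta a s - D.zeta (a * D.ψ 𝔠) s| ≤ B :=
  D.exists_zeta_sub_bound (kernel74 K) (kernel74_growth K) 𝔠 h𝔠 h𝔠m a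

/-- Summability of the partial zeta functions. -/
theorem summable_cls (a : A) {s : ℝ} (hs : 1 < s) :
    Summable fun I : D.cls a => (Ideal.absNorm (I : Ideal (𝓞 K)) : ℝ) ^ (-s) := by
  have h := D.summable_clsDvd (kernel74 K) ⊤ a hs
  rw [D.clsDvd_top a] at h
  exact h

/-- Upper bound `ζ(s, a) ≤ Z / (s - 1)`. -/
theorem exists_zeta_le (a : A) : ∃ Z : ℝ, 0 ≤ Z ∧ ∀ s : ℝ, 1 < s → s ≤ 2 →
    D.zeta a s ≤ Z / (s - 1) := by
  obtain ⟨c, hc0, hc⟩ := D.exists_zeta_le_total (kernel74 K) a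
  obtain ⟨G, hG⟩ := kernel74_growth K
  have hG0 : 0 ≤ G := by
    have h := hG 2 (by norm_num) le_rfl
    have h2 := (kernel74 K).total_nonneg 2
    nlinarith
  refine ⟨c * G, mul_nonneg hc0 hG0, fun s hs1 hs2 => ?_⟩
  have hs0 : 0 < s - 1 := by linarith
  rw [le_div_iff₀ hs0]
  calc D.zeta a s * (s - 1) ≤ (c * (kernel74 K).total s) * (s - 1) :=
        mul_le_mul_of_nonneg_right (hc s hs1 hs2) hs0.le
    _ = c * ((s - 1) * (kernel74 K).total s) := by ring
    _ ≤ c * G := mul_le_mul_of_nonneg_left (hG s hs1 hs2) hc0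

end RayDatum

end Fermat.Agent.S55.H963
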