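import Mathlib

/-!
# S55 / leaf RAY-N1 (helper963): abstract smoothing kernel for the unit action

`UnitKernel K` packages the analytic input of the "smoothed lattice sum" method
(S14 block N1, helper74 / helper124): a family `F s : 𝓞 K → ℝ` of nonnegative summable
functions such that
* summing `F s` over the orbit of a nonzero `x` under the units gives `w * N(x)^(-s)`;
* the translates `F s (y + t)` differ from `F s y` by a summable function, uniformly in
  `s ∈ (1, 2]`.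

From these two properties we derive the coset comparison
`N(J) * ∑_{y ∈ J} F s (y + t) = ∑_{x ∈ 𝓞 K} F s x + O(1)`.
-/

set_option autoImplicit false

namespace Fermat.Agent.S55.H963

open NumberField

/-- Abstract smoothing kernel for the action of the units of `𝓞 K` (see the file header). -/
structure UnitKernel (K : Type*) [Field K] [NumberField K] where
  /-- the smoothed summand `ρ(x) N(x)^(-s)` -/
  F : ℝ → 𝓞 K → ℝ
  /-- the number of roots of unity -/
  w : ℝ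
  w_pos : 0 < w
  nonneg : ∀ s x, 0 ≤ F s x
  map_zero : ∀ s, F s 0 = 0
  summable : ∀ s, 1 < s → Summable (F s)
  orbit : ∀ s, 1 < s → ∀ x : 𝓞 K, x ≠ 0 →
    HasSum (fun u : (𝓞 K)ˣ => F s ((u : 𝓞 K) * x))
      (w * (Ideal.absNorm (Ideal.span {x}) : ℝ) ^ (-s))
  shift : ∀ t : 𝓞 K, ∃ g : 𝓞 K → ℝ, Summable g ∧
    ∀ s, 1 < s → s ≤ 2 → ∀ y, |F s (y + t) - F s y| ≤ g y

variable {K : Type*} [Field K] [NumberField K] (κ : UnitKernel K)

namespace UnitKernel

/-- The total smoothed sum `Φ(s) = ∑_{x ∈ 𝓞 K} F s x`. -/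
noncomputable def total (s : ℝ) : ℝ := ∑' x : 𝓞 K, κ.F s x

theorem total_nonneg (s : ℝ) : 0 ≤ κ.total s := tsum_nonneg (κ.nonneg s)

/-- The smoothed sum over the coset `t + J`. -/
noncomputable def cosetSum (J : Ideal (𝓞 K)) (t : 𝓞 K) (s : ℝ) : ℝ :=
  ∑' y : J, κ.F s ((y : 𝓞 K) + t)

theorem cosetSum_nonneg (J : Ideal (𝓞 K)) (t : 𝓞 K) (s : ℝ) : 0 ≤ κ.cosetSum J t s :=
  tsum_nonneg fun _ => κ.nonneg s _

theorem summable_coset (J : Ideal (𝓞 K)) (t : 𝓞 K) {s : ℝ} (hs : 1 < s) :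
    Summable fun y : J => κ.F s ((y : 𝓞 K) + t) := by
  refine (κ.summable s hs).comp_injective (i := fun y : J => (y : 𝓞 K) + t) ?_
  intro y y' h
  exact Subtype.ext (add_right_cancel h)

/-- Shifting the coset changes the smoothed sum by a bounded amount. -/
theorem exists_shift_bound (J : Ideal (𝓞 K)) (t : 𝓞 K) : ∃ B : ℝ, ∀ s : ℝ, 1 < s → s ≤ 2 →
    |κ.cosetSum J t s - κ.cosetSum J 0 s| ≤ B := by
  obtain ⟨g, hg, hgb⟩ := κ.shift t
  have hg0 : ∀ y, 0 ≤ g y := fun y =>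
    (abs_nonneg _).trans (hgb 2 (by norm_num) le_rfl y)
  refine ⟨∑' y : J, g (y : 𝓞 K), fun s hs1 hs2 => ?_⟩
  have h1 := κ.summable_coset J t hs1
  have h0 := κ.summable_coset J 0 hs1
  unfold cosetSum
  rw [← h1.tsum_sub h0, ← Real.norm_eq_abs]
  have hgJ : Summable fun y : J => g (y : 𝓞 K) := hg.comp_injective Subtype.val_injective
  refine tsum_of_norm_bounded hgJ.hasSum fun y => ?_
  rw [Real.norm_eq_abs, add_zero]
  exact hgb s hs1 hs2 y

/-- Coset decomposition of `𝓞 K` along an ideal. -/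
noncomputable def cosetEquiv (J : Ideal (𝓞 K)) : (𝓞 K ⧸ J) × J ≃ 𝓞 K where
  toFun p := (p.2 : 𝓞 K) + Quotient.out p.1
  invFun x := (Ideal.Quotient.mk J x, ⟨x - Quotient.out (Ideal.Quotient.mk J x), by
    rw [← Ideal.Quotient.eq, Ideal.Quotient.mk_out]⟩)
  left_inv := by
    rintro ⟨q, y⟩
    have h1 : Ideal.Quotient.mk J ((y : 𝓞 K) + Quotient.out q) = q := by
      rw [map_add, Ideal.Quotient.mk_out, Ideal.Quotient.eq_zero_iff_mem.mpr y.2, zero_add]
    ext
    · exact h1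
    · simp only
      rw [h1, add_sub_cancel_right]
  right_inv := by
    intro x
    simp

theorem cosetEquiv_apply (J : Ideal (𝓞 K)) (q : 𝓞 K ⧸ J) (y : J) :
    cosetEquiv J (q, y) = (y : 𝓞 K) + Quotient.out q := rfl

/-- The total sum is the sum of the coset sums. -/
theorem total_eq_sum_cosetSum (J : Ideal (𝓞 K)) [Fintype (𝓞 K ⧸ J)] {s : ℝ} (hs : 1 < s) :
    κ.total s = ∑ q : 𝓞 K ⧸ J, κ.cosetSum J (Quotient.out q) s := by
  have hsumF := κ.summable s hs
  have hs' : Summable (κ.F s ∘ cosetEquiv J) :=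
    ((cosetEquiv J).summable_iff (f := κ.F s)).mpr hsumF
  have e1 : ∑' x : 𝓞 K, κ.F s x = ∑' p : (𝓞 K ⧸ J) × J, (κ.F s ∘ cosetEquiv J) p :=
    ((cosetEquiv J).tsum_eq (κ.F s)).symm
  have hsumq' : ∀ q : 𝓞 K ⧸ J, Summable fun y : J => (κ.F s ∘ cosetEquiv J) (q, y) := by
    intro q
    simp only [Function.comp_apply, cosetEquiv_apply]
    exact κ.summable_coset J _ hs
  unfold total cosetSum
  rw [e1, hs'.tsum_prod' hsumq', tsum_fintype]
  simp only [Function.comp_apply, cosetEquiv_apply]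

/-- **Coset comparison**: `N(J) * ∑_{y ∈ J} F s (y + t) = ∑_x F s x + O(1)` uniformly in
`s ∈ (1, 2]`. -/
theorem exists_coset_bound (J : Ideal (𝓞 K)) (hJ : J ≠ ⊥) (t : 𝓞 K) :
    ∃ B : ℝ, ∀ s : ℝ, 1 < s → s ≤ 2 →
      |(Ideal.absNorm J : ℝ) * κ.cosetSum J t s - κ.total s| ≤ B := by
  classical
  have : Finite (𝓞 K ⧸ J) := Ideal.finiteQuotientOfFreeOfNeBot J hJ
  let _ : Fintype (𝓞 K ⧸ J) := Fintype.ofFinite _
  have hcard : (Ideal.absNorm J : ℝ) = Fintype.card (𝓞 K ⧸ J) := by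
    rw [Ideal.absNorm_apply, Submodule.cardQuot_apply, Nat.card_eq_fintype_card]
  choose B hB using fun t : 𝓞 K => κ.exists_shift_bound J t
  refine ⟨(Ideal.absNorm J : ℝ) * B t + ∑ q : 𝓞 K ⧸ J, B (Quotient.out q),
    fun s hs1 hs2 => ?_⟩
  have h1 := κ.total_eq_sum_cosetSum J hs1
  have h2 : (Ideal.absNorm J : ℝ) * κ.cosetSum J 0 s =
      ∑ _q : 𝓞 K ⧸ J, κ.cosetSum J 0 s := by
    rw [Finset.sum_const, Finset.card_univ, nsmul_eq_mul, hcard]
  have h3 : |(Ideal.absNorm J : ℝ) * κ.cosetSum J 0 s - κ.total s| ≤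
      ∑ q : 𝓞 K ⧸ J, B (Quotient.out q) := by
    rw [h1, h2, ← Finset.sum_sub_distrib]
    refine (Finset.abs_sum_le_sum_abs _ _).trans (Finset.sum_le_sum fun q _ => ?_)
    rw [abs_sub_comm]
    exact hB _ s hs1 hs2
  have h4 : |(Ideal.absNorm J : ℝ) * κ.cosetSum J t s -
      (Ideal.absNorm J : ℝ) * κ.cosetSum J 0 s| ≤ (Ideal.absNorm J : ℝ) * B t := by
    rw [← mul_sub, abs_mul, abs_of_nonneg (Nat.cast_nonneg _)]
    exact mul_le_mul_of_nonneg_left (hB t s hs1 hs2) (Nat.cast_nonneg _)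
  calc |(Ideal.absNorm J : ℝ) * κ.cosetSum J t s - κ.total s|
      = |((Ideal.absNorm J : ℝ) * κ.cosetSum J t s -
          (Ideal.absNorm J : ℝ) * κ.cosetSum J 0 s) +
          ((Ideal.absNorm J : ℝ) * κ.cosetSum J 0 s - κ.total s)| := by ring_nf
    _ ≤ _ := (abs_add_le _ _).trans (add_le_add h4 h3)

end UnitKernel

end Fermat.Agent.S55.H963
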