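import Fermat.Agent.S55.H963.Kernel

/-!
# S55 / leaf RAY-N1 (helper963): sums over generators versus sums over principal ideals

For a set `P` of ideals of `𝓞 K`, the smoothed sum over all nonzero `x` with `(x) ∈ P` equals
`w` times the sum of `N(I)^(-s)` over the nonzero principal ideals `I ∈ P`.
-/

set_option autoImplicit false

namespace Fermat.Agent.S55.H963

open NumberField

variable {K : Type*} [Field K] [NumberField K] (κ : UnitKernel K)

/-- The nonzero elements generating an ideal in `P`. -/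
def genSet (P : Set (Ideal (𝓞 K))) : Set (𝓞 K) := {x | x ≠ 0 ∧ Ideal.span {x} ∈ P}

/-- The nonzero principal ideals in `P`. -/
def prinSet (P : Set (Ideal (𝓞 K))) : Set (Ideal (𝓞 K)) :=
  {I | I ≠ ⊥ ∧ Submodule.IsPrincipal I ∧ I ∈ P}

theorem mem_genSet {P : Set (Ideal (𝓞 K))} {x : 𝓞 K} :
    x ∈ genSet P ↔ x ≠ 0 ∧ Ideal.span {x} ∈ P := Iff.rfl

theorem mem_prinSet {P : Set (Ideal (𝓞 K))} {I : Ideal (𝓞 K)} :
    I ∈ prinSet P ↔ I ≠ ⊥ ∧ Submodule.IsPrincipal I ∧ I ∈ P := Iff.rfl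

theorem span_mem_prinSet {P : Set (Ideal (𝓞 K))} {x : 𝓞 K} (hx : x ∈ genSet P) :
    Ideal.span {x} ∈ prinSet P :=
  ⟨by simpa [Ideal.span_singleton_eq_bot] using hx.1, ⟨⟨x, rfl⟩⟩, hx.2⟩

/-- The map `x ↦ (x)` from generators to principal ideals. -/
def genToPrin (P : Set (Ideal (𝓞 K))) (x : genSet P) : prinSet P :=
  ⟨Ideal.span {(x : 𝓞 K)}, span_mem_prinSet x.2⟩

/-- The fibre of `x ↦ (x)` over `(x₀)` is a torsor under the units. -/
noncomputable def unitsEquivFiber (P : Set (Ideal (𝓞 K))) (I : prinSet P) (x₀ : 𝓞 K)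
    (hx₀ : Ideal.span {x₀} = (I : Ideal (𝓞 K))) :
    (𝓞 K)ˣ ≃ {x : genSet P // genToPrin P x = I} := by
  have hx₀0 : x₀ ≠ 0 := by
    intro h
    apply I.2.1
    rw [← hx₀, h]
    simp
  refine Equiv.ofBijective (fun u => ⟨⟨(u : 𝓞 K) * x₀, ?_, ?_⟩, ?_⟩) ⟨?_, ?_⟩
  · exact mul_ne_zero u.ne_zero hx₀0
  · have : Ideal.span {(u : 𝓞 K) * x₀} = Ideal.span {x₀} :=
      Ideal.span_singleton_eq_span_singleton.mpr ⟨u⁻¹, by
        rw [mul_comm, ← mul_assoc, Units.inv_mul, one_mul]⟩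
    rw [this, hx₀]
    exact I.2.2.2
  · apply Subtype.ext
    show Ideal.span {(u : 𝓞 K) * x₀} = (I : Ideal (𝓞 K))
    rw [← hx₀]
    exact Ideal.span_singleton_eq_span_singleton.mpr ⟨u⁻¹, by
        rw [mul_comm, ← mul_assoc, Units.inv_mul, one_mul]⟩
  · intro u v h
    have h' : (u : 𝓞 K) * x₀ = (v : 𝓞 K) * x₀ := congrArg (fun z => ((z.1 : genSet P) : 𝓞 K)) h
    exact Units.ext (mul_right_cancel₀ hx₀0 h')
  · rintro ⟨⟨x, hx⟩, hxI⟩
    have h1 : Ideal.span {x} = Ideal.span {x₀} := by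
      rw [hx₀]
      exact congrArg Subtype.val hxI
    obtain ⟨u, hu⟩ := Ideal.span_singleton_eq_span_singleton.mp h1
    refine ⟨u⁻¹, ?_⟩
    apply Subtype.ext
    apply Subtype.ext
    show ((u⁻¹ : (𝓞 K)ˣ) : 𝓞 K) * x₀ = x
    rw [← hu, mul_comm x, ← mul_assoc, Units.inv_mul, one_mul]

theorem unitsEquivFiber_apply (P : Set (Ideal (𝓞 K))) (I : prinSet P) (x₀ : 𝓞 K)
    (hx₀ : Ideal.span {x₀} = (I : Ideal (𝓞 K))) (u : (𝓞 K)ˣ) :
    (((unitsEquivFiber P I x₀ hx₀ u : {x : genSet P // genToPrin P x = I}) : genSet P) : 𝓞 K) =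
      (u : 𝓞 K) * x₀ := rfl

theorem summable_genSet (P : Set (Ideal (𝓞 K))) {s : ℝ} (hs : 1 < s) :
    Summable fun x : genSet P => κ.F s x :=
  (κ.summable s hs).comp_injective Subtype.val_injective

/-- **Orbit decomposition**: the smoothed sum over the generators of the ideals in `P` is
`w` times the partial zeta sum over the principal ideals in `P`. -/
theorem hasSum_prinSet (P : Set (Ideal (𝓞 K))) {s : ℝ} (hs : 1 < s) :
    HasSum (fun I : prinSet P => κ.w * (Ideal.absNorm (I : Ideal (𝓞 K)) : ℝ) ^ (-s))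
      (∑' x : genSet P, κ.F s x) := by
  have h0 : HasSum (fun x : genSet P => κ.F s x) (∑' x : genSet P, κ.F s x) :=
    (summable_genSet κ P hs).hasSum
  have h1 : HasSum (fun p : (Σ I : prinSet P, {x : genSet P // genToPrin P x = I}) =>
      κ.F s ((Equiv.sigmaFiberEquiv (genToPrin P) p : genSet P) : 𝓞 K))
      (∑' x : genSet P, κ.F s x) :=
    (Equiv.hasSum_iff (Equiv.sigmaFiberEquiv (genToPrin P))).mpr h0
  refine h1.sigma fun I => ?_
  obtain ⟨x₀, hx₀⟩ := I.2.2.1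
  have hx₀' : Ideal.span {x₀} = (I : Ideal (𝓞 K)) := hx₀.symm
  have hx₀0 : x₀ ≠ 0 := by
    intro h
    apply I.2.1
    rw [← hx₀', h]
    simp
  have h2 := κ.orbit s hs x₀ hx₀0
  rw [hx₀'] at h2
  rw [← (unitsEquivFiber P I x₀ hx₀').hasSum_iff]
  exact h2

include κ in
theorem summable_prinSet (P : Set (Ideal (𝓞 K))) {s : ℝ} (hs : 1 < s) :
    Summable fun I : prinSet P => (Ideal.absNorm (I : Ideal (𝓞 K)) : ℝ) ^ (-s) := by
  have h := (hasSum_prinSet κ P hs).summable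
  have h2 := h.mul_left (κ.w)⁻¹
  refine h2.congr fun I => ?_
  rw [← mul_assoc, inv_mul_cancel₀ κ.w_pos.ne', one_mul]

theorem tsum_prinSet (P : Set (Ideal (𝓞 K))) {s : ℝ} (hs : 1 < s) :
    κ.w * ∑' I : prinSet P, (Ideal.absNorm (I : Ideal (𝓞 K)) : ℝ) ^ (-s) =
      ∑' x : genSet P, κ.F s x := by
  rw [← tsum_mul_left]
  exact (hasSum_prinSet κ P hs).tsum_eq

end Fermat.Agent.S55.H963
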