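import Fermat.Agent.S55.H963.Principal

/-!
# S55 / leaf RAY-N1 (helper963): ray data and smoothed sums over congruence classes

A `RayDatum K A` is a modulus `m` together with a map `ψ` from ideals to a commutative group `A`
which is multiplicative on ideals coprime to `m` and trivial on principal ideals `(x)` with
`x ≡ 1 mod m` (a "ray class character datum").

For an ideal `J₀` coprime to `m` and `b : A` we show
`N(J₀) N(m) ∑_{x ∈ J₀, (x) coprime to m, ψ(x) = b} F s x = #Θ_b * Φ(s) + O(1)`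
where `Θ_b ⊆ 𝓞 K / m` does not depend on `J₀`.
-/

set_option autoImplicit false

namespace Fermat.Agent.S55.H963

open NumberField

/-- A ray class datum: a modulus and a map on ideals, multiplicative on ideals coprime to the
modulus and trivial on the ray `x ≡ 1 mod m`. -/
structure RayDatum (K : Type*) [Field K] [NumberField K] (A : Type*) [CommGroup A] where
  /-- the modulus -/
  m : Ideal (𝓞 K)
  m_ne_bot : m ≠ ⊥
  /-- the class map; only its values on ideals coprime to `m` matter -/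
  ψ : Ideal (𝓞 K) → A
  map_mul : ∀ I J : Ideal (𝓞 K), IsCoprime I m → IsCoprime J m → ψ (I * J) = ψ I * ψ J
  map_principal : ∀ x : 𝓞 K, x - 1 ∈ m → ψ (Ideal.span {x}) = 1

variable {K : Type*} [Field K] [NumberField K] {A : Type*} [CommGroup A]

namespace RayDatum

variable (D : RayDatum K A)

theorem isCoprime_span_iff {x : 𝓞 K} :
    IsCoprime (Ideal.span {x}) D.m ↔ ∃ z : 𝓞 K, x * z - 1 ∈ D.m := by
  rw [Ideal.isCoprime_iff_exists]
  constructor
  · rintro ⟨i, hi, j, hj, hij⟩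
    obtain ⟨z, rfl⟩ := Ideal.mem_span_singleton'.mp hi
    refine ⟨z, ?_⟩
    have : x * z - 1 = -j := by rw [← hij, mul_comm]; ring
    rw [this]
    exact D.m.neg_mem hj
  · rintro ⟨z, hz⟩
    refine ⟨x * z, Ideal.mem_span_singleton'.mpr ⟨z, mul_comm _ _⟩, -(x * z - 1),
      D.m.neg_mem hz, by ring⟩

/-- `x` is prime to the modulus and its principal ideal has class `b`. -/
def Good (x : 𝓞 K) (b : A) : Prop :=
  IsCoprime (Ideal.span {x}) D.m ∧ D.ψ (Ideal.span {x}) = b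

theorem good_of_sub_mem {x y : 𝓞 K} {b : A} (h : x - y ∈ D.m) (hx : D.Good x b) :
    D.Good y b := by
  obtain ⟨hcx, hψ⟩ := hx
  obtain ⟨z, hz⟩ := D.isCoprime_span_iff.mp hcx
  have hyz : y * z - 1 ∈ D.m := by
    have : y * z - 1 = (x * z - 1) - (x - y) * z := by ring
    rw [this]
    exact D.m.sub_mem hz (D.m.mul_mem_right _ h)
  have hcy : IsCoprime (Ideal.span {y}) D.m := D.isCoprime_span_iff.mpr ⟨z, hyz⟩
  have hcz : IsCoprime (Ideal.span {z}) D.m :=
    D.isCoprime_span_iff.mpr ⟨x, by rwa [mul_comm]⟩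
  refine ⟨hcy, ?_⟩
  have h1 : D.ψ (Ideal.span {x}) * D.ψ (Ideal.span {z}) = 1 := by
    rw [← D.map_mul _ _ hcx hcz, Ideal.span_singleton_mul_span_singleton]
    exact D.map_principal _ hz
  have h2 : D.ψ (Ideal.span {y}) * D.ψ (Ideal.span {z}) = 1 := by
    rw [← D.map_mul _ _ hcy hcz, Ideal.span_singleton_mul_span_singleton]
    exact D.map_principal _ hyz
  rw [← hψ]
  exact mul_right_cancel (h2.trans h1.symm)

theorem good_iff_of_sub_mem {x y : 𝓞 K} {b : A} (h : x - y ∈ D.m) :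
    D.Good x b ↔ D.Good y b :=
  ⟨D.good_of_sub_mem h, D.good_of_sub_mem (by
    have : y - x = -(x - y) := by ring
    rw [this]; exact D.m.neg_mem h)⟩

/-- The residues mod `m` of the elements prime to `m` whose principal ideal has class `b`. -/
def theta (b : A) : Set (𝓞 K ⧸ D.m) :=
  {r | ∃ x : 𝓞 K, Ideal.Quotient.mk D.m x = r ∧ D.Good x b}

/-- The set of ideals contained in `J₀`, prime to `m`, of class `b`. -/
def below (J₀ : Ideal (𝓞 K)) (b : A) : Set (Ideal (𝓞 K)) :=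
  {J | J ≤ J₀ ∧ IsCoprime J D.m ∧ D.ψ J = b}

/-- The condition cutting out the cosets of `J₀ ⊓ m` inside `{x ∈ J₀ | Good x b}`. -/
def CosetCond (J₀ : Ideal (𝓞 K)) (b : A) (q : 𝓞 K ⧸ (J₀ ⊓ D.m)) : Prop :=
  Quotient.out q ∈ J₀ ∧ D.Good (Quotient.out q) b

theorem mem_and_good_add_iff (J₀ : Ideal (𝓞 K)) (b : A) (t : 𝓞 K) (y : (J₀ ⊓ D.m : Ideal (𝓞 K))) :
    (((y : 𝓞 K) + t) ∈ J₀ ∧ D.Good ((y : 𝓞 K) + t) b) ↔ (t ∈ J₀ ∧ D.Good t b) := by
  have hy0 : (y : 𝓞 K) ∈ J₀ := (Ideal.mem_inf.mp y.2).1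
  have hym : (y : 𝓞 K) ∈ D.m := (Ideal.mem_inf.mp y.2).2
  have h1 : ((y : 𝓞 K) + t) ∈ J₀ ↔ t ∈ J₀ := by
    constructor
    · intro h
      have : t = ((y : 𝓞 K) + t) - y := by ring
      rw [this]
      exact J₀.sub_mem h hy0
    · intro h
      exact J₀.add_mem hy0 h
  have h2 : D.Good ((y : 𝓞 K) + t) b ↔ D.Good t b :=
    D.good_iff_of_sub_mem (by
      have : (y : 𝓞 K) + t - t = y := by ring
      rw [this]; exact hym)
  rw [h1, h2]

/-- The counting bijection between the good cosets of `J₀ ⊓ m` in `J₀` and `theta b`. -/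
theorem card_cosetCond (J₀ : Ideal (𝓞 K)) (hJ₀ : IsCoprime J₀ D.m) (b : A) :
    Nat.card {q : 𝓞 K ⧸ (J₀ ⊓ D.m) // D.CosetCond J₀ b q} = Nat.card (D.theta b) := by
  refine Nat.card_congr (Equiv.ofBijective
    (fun q => ⟨Ideal.Quotient.mk D.m (Quotient.out q.1), Quotient.out q.1, rfl, q.2.2⟩) ⟨?_, ?_⟩)
  · rintro ⟨q, hq⟩ ⟨q', hq'⟩ h
    have h' : Ideal.Quotient.mk D.m (Quotient.out q) = Ideal.Quotient.mk D.m (Quotient.out q') :=
      congrArg Subtype.val h
    rw [Ideal.Quotient.eq] at h'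
    have h2 : Quotient.out q - Quotient.out q' ∈ J₀ ⊓ D.m :=
      Ideal.mem_inf.mpr ⟨J₀.sub_mem hq.1 hq'.1, h'⟩
    apply Subtype.ext
    have h3 := (Ideal.Quotient.eq (I := J₀ ⊓ D.m)).mpr h2
    rwa [Ideal.Quotient.mk_out, Ideal.Quotient.mk_out] at h3
  · rintro ⟨r, x, rfl, hx⟩
    obtain ⟨i, hi, j, hj, hij⟩ := Ideal.isCoprime_iff_exists.mp hJ₀
    set t : 𝓞 K := x * i with ht
    have htJ : t ∈ J₀ := J₀.mul_mem_left _ hi
    have htx : t - x ∈ D.m := by
      have : t - x = -(x * j) := by rw [ht]; linear_combination x * hij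
      rw [this]
      exact D.m.neg_mem (D.m.mul_mem_left _ hj)
    set q : 𝓞 K ⧸ (J₀ ⊓ D.m) := Ideal.Quotient.mk _ t with hq
    have hout : Quotient.out q - t ∈ J₀ ⊓ D.m := by
      rw [← Ideal.Quotient.eq, Ideal.Quotient.mk_out]
    have hout0 : Quotient.out q ∈ J₀ := by
      have : Quotient.out q = (Quotient.out q - t) + t := by ring
      rw [this]
      exact J₀.add_mem (Ideal.mem_inf.mp hout).1 htJ
    have houtx : Quotient.out q - x ∈ D.m := by
      have : Quotient.out q - x = (Quotient.out q - t) + (t - x) := by ring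
      rw [this]
      exact D.m.add_mem (Ideal.mem_inf.mp hout).2 htx
    have hgood : D.Good (Quotient.out q) b :=
      D.good_of_sub_mem (by
        have : x - Quotient.out q = -(Quotient.out q - x) := by ring
        rw [this]; exact D.m.neg_mem houtx) hx
    refine ⟨⟨q, hout0, hgood⟩, ?_⟩
    apply Subtype.ext
    exact (Ideal.Quotient.eq (I := D.m)).mpr houtx

theorem inf_ne_bot {J₀ : Ideal (𝓞 K)} (hJ₀ : J₀ ≠ ⊥) : J₀ ⊓ D.m ≠ ⊥ := by
  intro h
  have h1 : J₀ * D.m ≤ J₀ ⊓ D.m := Ideal.mul_le_inf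
  rw [h, le_bot_iff] at h1
  rcases mul_eq_zero.mp h1 with h2 | h2
  · exact hJ₀ h2
  · exact D.m_ne_bot h2

theorem absNorm_inf {J₀ : Ideal (𝓞 K)} (hJ₀ : IsCoprime J₀ D.m) :
    Ideal.absNorm (J₀ ⊓ D.m) = Ideal.absNorm J₀ * Ideal.absNorm D.m := by
  rw [← Ideal.mul_eq_inf_of_isCoprime hJ₀, _root_.map_mul]

end RayDatum

end Fermat.Agent.S55.H963
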