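import Fermat.Agent.S55.H963.RayZeta

/-!
# S55 / leaf RAY-N1 (helper963): partial zeta functions of ray classes differ by `O(1)`

Main theorem `RayDatum.exists_zeta_sub_bound`: for a smoothing kernel `κ` with
`(s - 1) Φ(s) = O(1)`, a nonzero ideal `𝔠` coprime to the modulus and a class `a`,
`|ζ(s, a) - ζ(s, a ψ(𝔠))| ≤ B` uniformly in `s ∈ (1, 2]`.
-/

set_option autoImplicit false

namespace Fermat.Agent.S55.H963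

open NumberField

variable {K : Type*} [Field K] [NumberField K] {A : Type*} [CommGroup A]

theorem one_le_absNorm_cast {I : Ideal (𝓞 K)} (hI : I ≠ ⊥) : (1 : ℝ) ≤ Ideal.absNorm I := by
  have : Ideal.absNorm I ≠ 0 := by
    rw [Ne, Ideal.absNorm_eq_zero_iff]
    exact hI
  exact_mod_cast Nat.one_le_iff_ne_zero.mpr this

theorem rpow_le_sq_of_le_two {x s : ℝ} (hx : 1 ≤ x) (hs : s ≤ 2) : x ^ s ≤ x ^ 2 := by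
  have := Real.rpow_le_rpow_of_exponent_le hx hs
  simpa using this

namespace RayDatum

variable (D : RayDatum K A) (κ : UnitKernel K)

theorem tsum_genSet_le_total (P : Set (Ideal (𝓞 K))) {s : ℝ} (hs : 1 < s) :
    ∑' x : genSet P, κ.F s x ≤ κ.total s := by
  unfold UnitKernel.total
  rw [tsum_subtype (genSet P) (κ.F s)]
  refine Summable.tsum_le_tsum (fun x => ?_)
    ((κ.summable s hs).indicator _) (κ.summable s hs)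
  exact Set.indicator_le_self' (fun _ _ => κ.nonneg s _) x

theorem tsum_genSet_nonneg (P : Set (Ideal (𝓞 K))) (s : ℝ) :
    0 ≤ ∑' x : genSet P, κ.F s x :=
  tsum_nonneg fun _ => κ.nonneg s _

include κ in
/-- **Per-class comparison.** -/
theorem exists_zetaDvdAt_bound (𝔠 : Ideal (𝓞 K)) (h𝔠 : 𝔠 ≠ ⊥) (h𝔠m : IsCoprime 𝔠 D.m) (a : A)
    (C : ClassGroup (𝓞 K)) : ∃ B : ℝ, ∀ s : ℝ, 1 < s → s ≤ 2 →
      |(Ideal.absNorm 𝔠 : ℝ) * D.zetaDvdAt 𝔠 a C s - D.zetaDvdAt ⊤ a C s| ≤ B := by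
  obtain ⟨𝔟, h𝔟, h𝔟m, h𝔟C⟩ := exists_coprime_rep D.m D.m_ne_bot C⁻¹
  obtain ⟨B₁, hB₁⟩ := D.exists_below_bound κ (𝔠 * 𝔟) (mul_ne_zero h𝔠 h𝔟) (h𝔠m.mul_left h𝔟m)
    (a * D.ψ 𝔟)
  obtain ⟨B₂, hB₂⟩ := D.exists_below_bound κ (⊤ * 𝔟) (by rwa [Ideal.top_mul])
    (by rwa [Ideal.top_mul]) (a * D.ψ 𝔟)
  have hN𝔟 : (1 : ℝ) ≤ Ideal.absNorm 𝔟 := one_le_absNorm_cast h𝔟
  have hNm : (1 : ℝ) ≤ Ideal.absNorm D.m := one_le_absNorm_cast D.m_ne_bot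
  refine ⟨(Ideal.absNorm 𝔟 : ℝ) ^ 2 * (κ.w⁻¹ * (B₁ + B₂)), fun s hs1 hs2 => ?_⟩
  rw [D.zetaDvdAt_eq κ h𝔟 h𝔟m h𝔟C 𝔠 a hs1, D.zetaDvdAt_eq κ h𝔟 h𝔟m h𝔟C ⊤ a hs1]
  set X₁ := ∑' x : genSet (D.below (𝔠 * 𝔟) (a * D.ψ 𝔟)), κ.F s x with hX₁
  set X₂ := ∑' x : genSet (D.below (⊤ * 𝔟) (a * D.ψ 𝔟)), κ.F s x with hX₂
  have h1 := hB₁ s hs1 hs2
  have h2 := hB₂ s hs1 hs2
  rw [← hX₁, _root_.map_mul, Nat.cast_mul] at h1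
  rw [← hX₂, Ideal.top_mul] at h2
  rw [Ideal.top_mul] at hX₂
  have hw : 0 < κ.w⁻¹ := inv_pos.mpr κ.w_pos
  have hpos : 0 ≤ (Ideal.absNorm 𝔟 : ℝ) ^ s := Real.rpow_nonneg (by linarith) _
  have hle : (Ideal.absNorm 𝔟 : ℝ) ^ s ≤ (Ideal.absNorm 𝔟 : ℝ) ^ 2 :=
    rpow_le_sq_of_le_two hN𝔟 hs2
  have h3 : |(Ideal.absNorm 𝔠 : ℝ) * X₁ - X₂| ≤ B₁ + B₂ := by
    have e : (Ideal.absNorm 𝔟 : ℝ) * (Ideal.absNorm D.m : ℝ) *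
        ((Ideal.absNorm 𝔠 : ℝ) * X₁ - X₂) =
        ((Ideal.absNorm 𝔠 : ℝ) * (Ideal.absNorm 𝔟 : ℝ) * (Ideal.absNorm D.m : ℝ) * X₁ -
          (Nat.card (D.theta (a * D.ψ 𝔟)) : ℝ) * κ.total s) -
        ((Ideal.absNorm 𝔟 : ℝ) * (Ideal.absNorm D.m : ℝ) * X₂ -
          (Nat.card (D.theta (a * D.ψ 𝔟)) : ℝ) * κ.total s) := by ring
    have h4 : |(Ideal.absNorm 𝔟 : ℝ) * (Ideal.absNorm D.m : ℝ) *
        ((Ideal.absNorm 𝔠 : ℝ) * X₁ - X₂)| ≤ B₁ + B₂ := by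
      rw [e]
      exact (abs_sub _ _).trans (add_le_add h1 h2)
    have h5 : (1 : ℝ) ≤ (Ideal.absNorm 𝔟 : ℝ) * (Ideal.absNorm D.m : ℝ) := by nlinarith
    rw [abs_mul, abs_of_nonneg (by linarith : (0 : ℝ) ≤
      (Ideal.absNorm 𝔟 : ℝ) * (Ideal.absNorm D.m : ℝ))] at h4
    have h6 : 0 ≤ |(Ideal.absNorm 𝔠 : ℝ) * X₁ - X₂| := abs_nonneg _
    nlinarith
  have hB : 0 ≤ B₁ + B₂ := (abs_nonneg _).trans h3
  have e2 : (Ideal.absNorm 𝔠 : ℝ) * ((Ideal.absNorm 𝔟 : ℝ) ^ s * (κ.w⁻¹ * X₁)) -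
      (Ideal.absNorm 𝔟 : ℝ) ^ s * (κ.w⁻¹ * X₂) =
      (Ideal.absNorm 𝔟 : ℝ) ^ s * (κ.w⁻¹ * ((Ideal.absNorm 𝔠 : ℝ) * X₁ - X₂)) := by ring
  rw [e2, abs_mul, abs_mul, abs_of_nonneg hpos, abs_of_pos hw]
  exact mul_le_mul hle (mul_le_mul_of_nonneg_left h3 hw.le)
    (mul_nonneg hw.le (abs_nonneg _)) (by positivity)

include κ in
/-- **(★)** `N(𝔠) * ∑_{I ∈ class a, 𝔠 ∣ I} N(I)^(-s) = ζ(s, a) + O(1)`. -/
theorem exists_zetaDvd_bound (𝔠 : Ideal (𝓞 K)) (h𝔠 : 𝔠 ≠ ⊥) (h𝔠m : IsCoprime 𝔠 D.m) (a : A) :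
    ∃ B : ℝ, ∀ s : ℝ, 1 < s → s ≤ 2 →
      |(Ideal.absNorm 𝔠 : ℝ) * D.zetaDvd 𝔠 a s - D.zeta a s| ≤ B := by
  classical
  choose B hB using fun C => D.exists_zetaDvdAt_bound κ 𝔠 h𝔠 h𝔠m a C
  refine ⟨∑ C : ClassGroup (𝓞 K), B C, fun s hs1 hs2 => ?_⟩
  rw [← D.zetaDvd_top a s, D.zetaDvd_eq_sum κ 𝔠 a hs1, D.zetaDvd_eq_sum κ ⊤ a hs1,
    Finset.mul_sum, ← Finset.sum_sub_distrib]
  exact (Finset.abs_sum_le_sum_abs _ _).trans (Finset.sum_le_sum fun C _ => hB C s hs1 hs2)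

/-- **Growth**: the partial zeta functions are dominated by the total smoothed sum. -/
theorem exists_zeta_le_total (a : A) : ∃ c : ℝ, 0 ≤ c ∧ ∀ s : ℝ, 1 < s → s ≤ 2 →
    D.zeta a s ≤ c * κ.total s := by
  classical
  have key : ∀ C : ClassGroup (𝓞 K), ∃ c : ℝ, 0 ≤ c ∧ ∀ s : ℝ, 1 < s → s ≤ 2 →
      D.zetaDvdAt ⊤ a C s ≤ c * κ.total s := by
    intro C
    obtain ⟨𝔟, h𝔟, h𝔟m, h𝔟C⟩ := exists_coprime_rep D.m D.m_ne_bot C⁻¹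
    have hN𝔟 : (1 : ℝ) ≤ Ideal.absNorm 𝔟 := one_le_absNorm_cast h𝔟
    have hw : 0 < κ.w⁻¹ := inv_pos.mpr κ.w_pos
    refine ⟨(Ideal.absNorm 𝔟 : ℝ) ^ 2 * κ.w⁻¹, by positivity, fun s hs1 hs2 => ?_⟩
    rw [D.zetaDvdAt_eq κ h𝔟 h𝔟m h𝔟C ⊤ a hs1, mul_assoc]
    have hpos : 0 ≤ (Ideal.absNorm 𝔟 : ℝ) ^ s := Real.rpow_nonneg (by linarith) _
    have hle : (Ideal.absNorm 𝔟 : ℝ) ^ s ≤ (Ideal.absNorm 𝔟 : ℝ) ^ 2 :=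
      rpow_le_sq_of_le_two hN𝔟 hs2
    have h1 := tsum_genSet_le_total κ (D.below (⊤ * 𝔟) (a * D.ψ 𝔟)) hs1
    have h2 := tsum_genSet_nonneg κ (D.below (⊤ * 𝔟) (a * D.ψ 𝔟)) s
    exact mul_le_mul hle (mul_le_mul_of_nonneg_left h1 hw.le) (mul_nonneg hw.le h2)
      (by positivity)
  choose c hc0 hc using key
  refine ⟨∑ C : ClassGroup (𝓞 K), c C, Finset.sum_nonneg fun C _ => hc0 C,
    fun s hs1 hs2 => ?_⟩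
  rw [← D.zetaDvd_top a s, D.zetaDvd_eq_sum κ ⊤ a hs1, Finset.sum_mul]
  exact Finset.sum_le_sum fun C _ => hc C s hs1 hs2

theorem zeta_nonneg (a : A) (s : ℝ) : 0 ≤ D.zeta a s :=
  tsum_nonneg fun _ => Real.rpow_nonneg (Nat.cast_nonneg _) _

/-- **Translation by `𝔠`.** -/
theorem zeta_eq_zetaDvd (𝔠 : Ideal (𝓞 K)) (h𝔠 : 𝔠 ≠ ⊥) (h𝔠m : IsCoprime 𝔠 D.m) (a : A)
    (s : ℝ) : D.zeta a s = (Ideal.absNorm 𝔠 : ℝ) ^ s * D.zetaDvd 𝔠 (a * D.ψ 𝔠) s := by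
  unfold zeta zetaDvd
  refine tsum_mul_ideal 𝔠 h𝔠 (D.cls a) (D.clsDvd 𝔠 (a * D.ψ 𝔠)) ?_ ?_ s
  · rintro I ⟨hI0, hIm, hIψ⟩
    exact ⟨mul_ne_zero hI0 h𝔠, hIm.mul_left h𝔠m, by rw [D.map_mul _ _ hIm h𝔠m, hIψ],
      Ideal.mul_le_right⟩
  · rintro J ⟨hJ0, hJm, hJψ, hJle⟩
    obtain ⟨I, hI⟩ := Ideal.dvd_iff_le.mpr hJle
    have hJeq : I * 𝔠 = J := by rw [hI, mul_comm]
    have hI0 : I ≠ ⊥ := by
      rintro rfl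
      exact hJ0 (by rw [← hJeq]; simp)
    have hIm : IsCoprime I D.m := by
      rw [← hJeq] at hJm
      exact hJm.of_mul_left_left
    refine ⟨I, ⟨hI0, hIm, ?_⟩, hJeq⟩
    have h1 : D.ψ I * D.ψ 𝔠 = a * D.ψ 𝔠 := by
      rw [← D.map_mul _ _ hIm h𝔠m, hJeq, hJψ]
    exact mul_right_cancel h1

/-- **RAY-N1**: the partial zeta functions of two classes in the same coset of the image of
`ψ` differ by a bounded function on `(1, 2]`. -/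
theorem exists_zeta_sub_bound
    (hgrow : ∃ G : ℝ, ∀ s : ℝ, 1 < s → s ≤ 2 → (s - 1) * κ.total s ≤ G)
    (𝔠 : Ideal (𝓞 K)) (h𝔠 : 𝔠 ≠ ⊥) (h𝔠m : IsCoprime 𝔠 D.m) (a : A) :
    ∃ B : ℝ, ∀ s : ℝ, 1 < s → s ≤ 2 → |D.zeta a s - D.zeta (a * D.ψ 𝔠) s| ≤ B := by
  obtain ⟨G, hG⟩ := hgrow
  obtain ⟨B₀, hB₀⟩ := D.exists_zetaDvd_bound κ 𝔠 h𝔠 h𝔠m (a * D.ψ 𝔠)
  obtain ⟨c, hc0, hc⟩ := D.exists_zeta_le_total κ (a * D.ψ 𝔠)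
  have hN : (1 : ℝ) ≤ Ideal.absNorm 𝔠 := one_le_absNorm_cast h𝔠
  have hN0 : (0 : ℝ) < Ideal.absNorm 𝔠 := by linarith
  refine ⟨(Ideal.absNorm 𝔠 : ℝ) * B₀ + ((Ideal.absNorm 𝔠 : ℝ) - 1) * (c * G),
    fun s hs1 hs2 => ?_⟩
  set N : ℝ := (Ideal.absNorm 𝔠 : ℝ) with hNdef
  set Zd := D.zetaDvd 𝔠 (a * D.ψ 𝔠) s with hZd
  set Z' := D.zeta (a * D.ψ 𝔠) s with hZ'
  have h0 := hB₀ s hs1 hs2
  rw [← hZd, ← hZ'] at h0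
  have hB₀0 : 0 ≤ B₀ := (abs_nonneg _).trans h0
  have hZ'0 : 0 ≤ Z' := D.zeta_nonneg _ _
  have hpow : N ^ s = N ^ (s - 1) * N := by
    rw [← Real.rpow_add_one hN0.ne' (s - 1)]
    congr 1
    ring
  have hp1 : 1 ≤ N ^ (s - 1) := Real.one_le_rpow hN (by linarith)
  have hp2 : N ^ (s - 1) ≤ N := by
    have := Real.rpow_le_rpow_of_exponent_le hN (by linarith : s - 1 ≤ 1)
    simpa using this
  have hp3 : N ^ (s - 1) - 1 ≤ (s - 1) * (N - 1) := by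
    have := rpow_one_add_le_one_add_mul_self (s := N - 1) (by linarith)
      (p := s - 1) (by linarith) (by linarith)
    have e : 1 + (N - 1) = N := by ring
    rw [e] at this
    linarith
  rw [D.zeta_eq_zetaDvd 𝔠 h𝔠 h𝔠m a s, ← hZd, hpow]
  have e : N ^ (s - 1) * N * Zd - Z' = N ^ (s - 1) * (N * Zd - Z') + (N ^ (s - 1) - 1) * Z' := by
    ring
  rw [e]
  refine (abs_add_le _ _).trans (add_le_add ?_ ?_)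
  · rw [abs_mul, abs_of_nonneg (by linarith : (0 : ℝ) ≤ N ^ (s - 1))]
    exact mul_le_mul hp2 h0 (abs_nonneg _) hN0.le
  · rw [abs_mul, abs_of_nonneg (by linarith : (0 : ℝ) ≤ N ^ (s - 1) - 1), abs_of_nonneg hZ'0]
    have h1 : Z' ≤ c * κ.total s := hc s hs1 hs2
    have h2 : (s - 1) * κ.total s ≤ G := hG s hs1 hs2
    have h3 : 0 ≤ κ.total s := κ.total_nonneg s
    have hs0 : 0 < s - 1 := by linarith
    calc (N ^ (s - 1) - 1) * Z' ≤ ((s - 1) * (N - 1)) * (c * κ.total s) :=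
          mul_le_mul hp3 h1 hZ'0 (by nlinarith)
      _ = (N - 1) * (c * ((s - 1) * κ.total s)) := by ring
      _ ≤ (N - 1) * (c * G) :=
          mul_le_mul_of_nonneg_left (mul_le_mul_of_nonneg_left h2 hc0) (by linarith)

end RayDatum

end Fermat.Agent.S55.H963
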