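import Fermat.Agent.S55.H963.Instance

/-!
# S55 / leaf RAY-N1 (helper963): ray class `L`-series are bounded on `(1, 2]`

For a ray datum `D` with finite class group `A` on which `ψ` is surjective:
* `exists_zeta_sub_bound_of_surj` : all partial zeta functions differ by `O(1)`;
* `exists_LSum_bound` : for a nontrivial character `χ` of `A`, the series
  `L(s, χ) = ∑_{I coprime to m} χ(ψ I) N(I)^(-s)` is bounded on `(1, 2]`.
-/

set_option autoImplicit false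

namespace Fermat.Agent.S55.H963

open NumberField

variable {K : Type*} [Field K] [NumberField K] {A : Type*} [CommGroup A]

namespace RayDatum

variable (D : RayDatum K A)

/-- `ψ` is surjective on the nonzero ideals coprime to the modulus. -/
def IsSurj : Prop :=
  ∀ a : A, ∃ 𝔠 : Ideal (𝓞 K), 𝔠 ≠ ⊥ ∧ IsCoprime 𝔠 D.m ∧ D.ψ 𝔠 = a

/-- **RAY-N1, uniform version.** -/
theorem exists_zeta_sub_bound_of_surj [Finite A] (hsurj : D.IsSurj) :
    ∃ B : ℝ, ∀ s : ℝ, 1 < s → s ≤ 2 → ∀ a a' : A, |D.zeta a s - D.zeta a' s| ≤ B := by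
  classical
  have _ : Fintype A := Fintype.ofFinite A
  have key : ∀ p : A × A, ∃ B : ℝ, ∀ s : ℝ, 1 < s → s ≤ 2 →
      |D.zeta p.1 s - D.zeta p.2 s| ≤ B := by
    rintro ⟨a, a'⟩
    obtain ⟨𝔠, h𝔠, h𝔠m, h𝔠ψ⟩ := hsurj (a⁻¹ * a')
    obtain ⟨B, hB⟩ := D.exists_zeta_sub_bound' 𝔠 h𝔠 h𝔠m a
    refine ⟨B, fun s hs1 hs2 => ?_⟩
    have := hB s hs1 hs2
    rwa [h𝔠ψ, mul_inv_cancel_left] at this
  choose B hB using key
  refine ⟨∑ p : A × A, |B p|, fun s hs1 hs2 a a' => ?_⟩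
  refine ((hB (a, a') s hs1 hs2).trans (le_abs_self _)).trans ?_
  exact Finset.single_le_sum (f := fun p => |B p|) (fun p _ => abs_nonneg _)
    (Finset.mem_univ (a, a'))

/-- The nonzero ideals coprime to the modulus. -/
def all : Set (Ideal (𝓞 K)) := {I | I ≠ ⊥ ∧ IsCoprime I D.m}

/-- The `L`-series of the character `χ ∘ ψ`, for a real argument. -/
noncomputable def LSum (χ : A →* ℂˣ) (s : ℝ) : ℂ :=
  ∑' I : D.all, ((χ (D.ψ I) : ℂˣ) : ℂ) *
    (((Ideal.absNorm (I : Ideal (𝓞 K)) : ℝ) ^ (-s) : ℝ) : ℂ)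

theorem norm_char [Finite A] (χ : A →* ℂˣ) (a : A) : ‖((χ a : ℂˣ) : ℂ)‖ = 1 := by
  have _ : Fintype A := Fintype.ofFinite A
  have h1 : ((χ a : ℂˣ) : ℂ) ^ (Fintype.card A) = 1 := by
    rw [← Units.val_pow_eq_pow_val, ← map_pow, pow_card_eq_one, map_one, Units.val_one]
  exact Complex.norm_eq_one_of_pow_eq_one h1 Fintype.card_ne_zero

theorem sum_char_eq_zero [Fintype A] (χ : A →* ℂˣ) (hχ : χ ≠ 1) :
    ∑ a : A, ((χ a : ℂˣ) : ℂ) = 0 := by
  have h := sum_hom_units_eq_zero ((Units.coeHom ℂ).comp χ) (by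
    intro h
    apply hχ
    ext a
    have := DFunLike.congr_fun h a
    simpa using this)
  simpa using h

/-- The `L`-series as a combination of partial zeta functions. -/
theorem LSum_eq_sum [Fintype A] (χ : A →* ℂˣ) {s : ℝ} (hs : 1 < s) :
    D.LSum χ s = ∑ a : A, ((χ a : ℂˣ) : ℂ) * ((D.zeta a s : ℝ) : ℂ) := by
  classical
  unfold LSum
  set f : Ideal (𝓞 K) → ℂ := fun I =>
    ((χ (D.ψ I) : ℂˣ) : ℂ) * (((Ideal.absNorm I : ℝ) ^ (-s) : ℝ) : ℂ) with hf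
  have hsub : ∀ a : A, Summable fun I : D.cls a => f I := by
    intro a
    have h1 : Summable fun I : D.cls a =>
        (((Ideal.absNorm (I : Ideal (𝓞 K)) : ℝ) ^ (-s) : ℝ) : ℂ) :=
      Complex.summable_ofReal.mpr (D.summable_cls a hs)
    refine (h1.mul_left ((χ a : ℂˣ) : ℂ)).congr fun I => ?_
    show _ = ((χ (D.ψ (I : Ideal (𝓞 K))) : ℂˣ) : ℂ) * _
    rw [I.2.2.2]
  have hval : ∀ a : A, ∑' I : D.cls a, f I = ((χ a : ℂˣ) : ℂ) * ((D.zeta a s : ℝ) : ℂ) := by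
    intro a
    unfold zeta
    rw [Complex.ofReal_tsum, ← tsum_mul_left]
    congr 1
    funext I
    show ((χ (D.ψ (I : Ideal (𝓞 K))) : ℂˣ) : ℂ) * _ = _
    rw [I.2.2.2]
  have h1 : ∀ a : A, Summable ((D.cls a).indicator f) := fun a =>
    summable_subtype_iff_indicator.mp (hsub a)
  have h2 : (D.all).indicator f = fun I => ∑ a : A, (D.cls a).indicator f I := by
    funext I
    by_cases hI : I ∈ D.all
    · rw [Set.indicator_of_mem hI, Finset.sum_eq_single (D.ψ I)]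
      · rw [Set.indicator_of_mem]
        exact ⟨hI.1, hI.2, rfl⟩
      · intro a _ ha
        rw [Set.indicator_of_notMem]
        rintro ⟨-, -, h⟩
        exact ha h.symm
      · intro h
        exact absurd (Finset.mem_univ _) h
    · rw [Set.indicator_of_notMem hI]
      symm
      apply Finset.sum_eq_zero
      intro a _
      rw [Set.indicator_of_notMem]
      rintro ⟨h1, h2, -⟩
      exact hI ⟨h1, h2⟩
  rw [tsum_subtype (D.all) f, h2, Summable.tsum_finsetSum (fun a _ => h1 a)]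
  refine Finset.sum_congr rfl fun a _ => ?_
  rw [← tsum_subtype (D.cls a) f]
  exact hval a

/-- **Ray class `L`-series are bounded near `s = 1`.** -/
theorem exists_LSum_bound [Finite A] (hsurj : D.IsSurj) (χ : A →* ℂˣ) (hχ : χ ≠ 1) :
    ∃ B : ℝ, ∀ s : ℝ, 1 < s → s ≤ 2 → ‖D.LSum χ s‖ ≤ B := by
  classical
  have _ : Fintype A := Fintype.ofFinite A
  obtain ⟨B, hB⟩ := D.exists_zeta_sub_bound_of_surj hsurj
  refine ⟨Fintype.card A * B, fun s hs1 hs2 => ?_⟩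
  rw [D.LSum_eq_sum χ hs1]
  have h0 : ∑ a : A, ((χ a : ℂˣ) : ℂ) * ((D.zeta 1 s : ℝ) : ℂ) = 0 := by
    rw [← Finset.sum_mul, sum_char_eq_zero χ hχ, zero_mul]
  have h1 : ∑ a : A, ((χ a : ℂˣ) : ℂ) * ((D.zeta a s : ℝ) : ℂ) =
      ∑ a : A, ((χ a : ℂˣ) : ℂ) * (((D.zeta a s - D.zeta 1 s : ℝ)) : ℂ) := by
    rw [← sub_zero (∑ a : A, ((χ a : ℂˣ) : ℂ) * ((D.zeta a s : ℝ) : ℂ)), ← h0,
      ← Finset.sum_sub_distrib]
    refine Finset.sum_congr rfl fun a _ => ?_
    push_cast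
    ring
  rw [h1]
  refine (norm_sum_le _ _).trans ?_
  have h2 : ∀ a ∈ (Finset.univ : Finset A),
      ‖((χ a : ℂˣ) : ℂ) * (((D.zeta a s - D.zeta 1 s : ℝ)) : ℂ)‖ ≤ B := by
    intro a _
    rw [norm_mul, norm_char χ a, one_mul, Complex.norm_real, Real.norm_eq_abs]
    exact hB s hs1 hs2 a 1
  refine (Finset.sum_le_sum h2).trans ?_
  rw [Finset.sum_const, Finset.card_univ, nsmul_eq_mul]

end RayDatum

end Fermat.Agent.S55.H963
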