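import Fermat.Agent.S55.H963.ClassRep

/-!
# S55 / leaf RAY-N1 (helper963): partial zeta functions of ray classes

`D.zeta a s = ∑ N(I)^(-s)` over the nonzero ideals `I` coprime to the modulus with `ψ I = a`.
Main results (for an abstract smoothing kernel `κ`):

* `exists_zetaDvd_bound` : `N(𝔠) * ∑_{I ∈ class a, I ≤ 𝔠} N(I)^(-s) = ζ(s, a) + O(1)`;
* `exists_zeta_le_total` : `ζ(s, a) ≤ c * Φ(s)`;
* `zeta_eq_zetaDvd`      : `ζ(s, a) = N(𝔠)^s * ∑_{I ∈ class a ψ(𝔠), I ≤ 𝔠} N(I)^(-s)`.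
-/

set_option autoImplicit false

namespace Fermat.Agent.S55.H963

open NumberField

variable {K : Type*} [Field K] [NumberField K] {A : Type*} [CommGroup A]

namespace RayDatum

variable (D : RayDatum K A) (κ : UnitKernel K)

/-- Nonzero ideals coprime to the modulus, of class `a`, contained in `𝔠`. -/
def clsDvd (𝔠 : Ideal (𝓞 K)) (a : A) : Set (Ideal (𝓞 K)) :=
  {I | I ≠ ⊥ ∧ IsCoprime I D.m ∧ D.ψ I = a ∧ I ≤ 𝔠}

/-- Nonzero ideals coprime to the modulus, of class `a`. -/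
def cls (a : A) : Set (Ideal (𝓞 K)) :=
  {I | I ≠ ⊥ ∧ IsCoprime I D.m ∧ D.ψ I = a}

/-- The part of `clsDvd 𝔠 a` lying in the ideal class `C`. -/
def clsDvdAt (𝔠 : Ideal (𝓞 K)) (a : A) (C : ClassGroup (𝓞 K)) : Set (Ideal (𝓞 K)) :=
  {I | I ∈ D.clsDvd 𝔠 a ∧ cl I = C}

/-- The partial zeta function of the class `a`. -/
noncomputable def zeta (a : A) (s : ℝ) : ℝ :=
  ∑' I : D.cls a, (Ideal.absNorm (I : Ideal (𝓞 K)) : ℝ) ^ (-s)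

/-- The partial zeta function of the ideals of class `a` divisible by `𝔠`. -/
noncomputable def zetaDvd (𝔠 : Ideal (𝓞 K)) (a : A) (s : ℝ) : ℝ :=
  ∑' I : D.clsDvd 𝔠 a, (Ideal.absNorm (I : Ideal (𝓞 K)) : ℝ) ^ (-s)

/-- The part of `zetaDvd` in the ideal class `C`. -/
noncomputable def zetaDvdAt (𝔠 : Ideal (𝓞 K)) (a : A) (C : ClassGroup (𝓞 K)) (s : ℝ) : ℝ :=
  ∑' I : D.clsDvdAt 𝔠 a C, (Ideal.absNorm (I : Ideal (𝓞 K)) : ℝ) ^ (-s)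

theorem clsDvd_top (a : A) : D.clsDvd ⊤ a = D.cls a := by
  ext I
  simp [clsDvd, cls]

theorem zetaDvd_top (a : A) (s : ℝ) : D.zetaDvd ⊤ a s = D.zeta a s := by
  unfold zetaDvd zeta
  rw [D.clsDvd_top a]

section PerClass

variable {𝔟 𝔠 : Ideal (𝓞 K)} {C : ClassGroup (𝓞 K)}

theorem mul_mem_prinSet_below (h𝔟 : 𝔟 ≠ ⊥) (h𝔟m : IsCoprime 𝔟 D.m) (h𝔟C : cl 𝔟 = C⁻¹)
    (a : A) {I : Ideal (𝓞 K)} (hI : I ∈ D.clsDvdAt 𝔠 a C) :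
    I * 𝔟 ∈ prinSet (D.below (𝔠 * 𝔟) (a * D.ψ 𝔟)) := by
  obtain ⟨⟨hI0, hIm, hIψ, hI𝔠⟩, hIC⟩ := hI
  refine ⟨mul_ne_zero hI0 h𝔟, ?_, Ideal.mul_mono hI𝔠 le_rfl, hIm.mul_left h𝔟m, ?_⟩
  · rw [← cl_eq_one_iff (mul_ne_zero hI0 h𝔟), cl_mul hI0 h𝔟, hIC, h𝔟C, mul_inv_cancel]
  · rw [D.map_mul _ _ hIm h𝔟m, hIψ]

theorem exists_mul_eq_of_mem_prinSet_below (h𝔟 : 𝔟 ≠ ⊥) (h𝔟m : IsCoprime 𝔟 D.m)
    (h𝔟C : cl 𝔟 = C⁻¹) (a : A) {J : Ideal (𝓞 K)}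
    (hJ : J ∈ prinSet (D.below (𝔠 * 𝔟) (a * D.ψ 𝔟))) :
    ∃ I ∈ D.clsDvdAt 𝔠 a C, I * 𝔟 = J := by
  obtain ⟨hJ0, hJp, hJle, hJm, hJψ⟩ := hJ
  obtain ⟨I', hI'⟩ := Ideal.dvd_iff_le.mpr hJle
  have hJeq : (𝔠 * I') * 𝔟 = J := by rw [hI']; ring
  have hI0 : 𝔠 * I' ≠ ⊥ := by
    intro h
    rw [h] at hJeq
    exact hJ0 (by rw [← hJeq]; simp)
  have hIm : IsCoprime (𝔠 * I') D.m := by
    rw [← hJeq] at hJm
    exact hJm.of_mul_left_left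
  refine ⟨𝔠 * I', ⟨⟨hI0, hIm, ?_, Ideal.mul_le_left⟩, ?_⟩, hJeq⟩
  · have h1 : D.ψ (𝔠 * I') * D.ψ 𝔟 = a * D.ψ 𝔟 := by
      rw [← D.map_mul _ _ hIm h𝔟m, hJeq, hJψ]
    exact mul_right_cancel h1
  · have h1 : cl ((𝔠 * I') * 𝔟) = 1 := by
      rw [hJeq]
      exact (cl_eq_one_iff hJ0).mpr hJp
    rw [cl_mul hI0 h𝔟, h𝔟C] at h1
    exact mul_inv_eq_one.mp h1

/-- The partial zeta sum of an ideal class as a smoothed sum over elements. -/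
theorem zetaDvdAt_eq (h𝔟 : 𝔟 ≠ ⊥) (h𝔟m : IsCoprime 𝔟 D.m) (h𝔟C : cl 𝔟 = C⁻¹)
    (𝔠 : Ideal (𝓞 K)) (a : A) {s : ℝ} (hs : 1 < s) :
    D.zetaDvdAt 𝔠 a C s = (Ideal.absNorm 𝔟 : ℝ) ^ s * (κ.w⁻¹ *
      ∑' x : genSet (D.below (𝔠 * 𝔟) (a * D.ψ 𝔟)), κ.F s x) := by
  unfold zetaDvdAt
  rw [tsum_mul_ideal 𝔟 h𝔟 (D.clsDvdAt 𝔠 a C) (prinSet (D.below (𝔠 * 𝔟) (a * D.ψ 𝔟)))
    (fun I hI => D.mul_mem_prinSet_below h𝔟 h𝔟m h𝔟C a hI)
    (fun J hJ => D.exists_mul_eq_of_mem_prinSet_below h𝔟 h𝔟m h𝔟C a hJ) s,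
    ← tsum_prinSet κ _ hs, ← mul_assoc κ.w⁻¹, inv_mul_cancel₀ κ.w_pos.ne', one_mul]

include κ in
theorem summable_clsDvdAt (h𝔟 : 𝔟 ≠ ⊥) (h𝔟m : IsCoprime 𝔟 D.m) (h𝔟C : cl 𝔟 = C⁻¹)
    (𝔠 : Ideal (𝓞 K)) (a : A) {s : ℝ} (hs : 1 < s) :
    Summable fun I : D.clsDvdAt 𝔠 a C => (Ideal.absNorm (I : Ideal (𝓞 K)) : ℝ) ^ (-s) :=
  summable_of_mul_ideal 𝔟 h𝔟 (D.clsDvdAt 𝔠 a C) (prinSet (D.below (𝔠 * 𝔟) (a * D.ψ 𝔟)))
    (fun I hI => D.mul_mem_prinSet_below h𝔟 h𝔟m h𝔟C a hI) s (summable_prinSet κ _ hs)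

end PerClass

include κ in
/-- Each class part is summable. -/
theorem summable_clsDvdAt' (𝔠 : Ideal (𝓞 K)) (a : A) (C : ClassGroup (𝓞 K)) {s : ℝ}
    (hs : 1 < s) :
    Summable fun I : D.clsDvdAt 𝔠 a C => (Ideal.absNorm (I : Ideal (𝓞 K)) : ℝ) ^ (-s) := by
  obtain ⟨𝔟, h𝔟, h𝔟m, h𝔟C⟩ := exists_coprime_rep D.m D.m_ne_bot C⁻¹
  exact D.summable_clsDvdAt κ h𝔟 h𝔟m h𝔟C 𝔠 a hs

include κ in
/-- **Partition into ideal classes.** -/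
theorem zetaDvd_eq_sum (𝔠 : Ideal (𝓞 K)) (a : A) {s : ℝ} (hs : 1 < s) :
    D.zetaDvd 𝔠 a s = ∑ C : ClassGroup (𝓞 K), D.zetaDvdAt 𝔠 a C s := by
  classical
  unfold zetaDvd zetaDvdAt
  set f : Ideal (𝓞 K) → ℝ := fun I => (Ideal.absNorm I : ℝ) ^ (-s) with hf
  have h1 : ∀ C : ClassGroup (𝓞 K), Summable ((D.clsDvdAt 𝔠 a C).indicator f) := fun C =>
    summable_subtype_iff_indicator.mp (D.summable_clsDvdAt' κ 𝔠 a C hs)
  have h2 : (D.clsDvd 𝔠 a).indicator f =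
      fun I => ∑ C : ClassGroup (𝓞 K), (D.clsDvdAt 𝔠 a C).indicator f I := by
    funext I
    by_cases hI : I ∈ D.clsDvd 𝔠 a
    · rw [Set.indicator_of_mem hI, Finset.sum_eq_single (cl I)]
      · rw [Set.indicator_of_mem]
        exact ⟨hI, rfl⟩
      · intro C _ hC
        rw [Set.indicator_of_notMem]
        rintro ⟨-, h⟩
        exact hC h.symm
      · intro h
        exact absurd (Finset.mem_univ _) h
    · rw [Set.indicator_of_notMem hI]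
      symm
      apply Finset.sum_eq_zero
      intro C _
      rw [Set.indicator_of_notMem]
      rintro ⟨h, -⟩
      exact hI h
  rw [tsum_subtype (D.clsDvd 𝔠 a) f, h2, Summable.tsum_finsetSum (fun C _ => h1 C)]
  refine Finset.sum_congr rfl fun C _ => ?_
  rw [tsum_subtype (D.clsDvdAt 𝔠 a C) f]

include κ in
theorem summable_clsDvd (𝔠 : Ideal (𝓞 K)) (a : A) {s : ℝ} (hs : 1 < s) :
    Summable fun I : D.clsDvd 𝔠 a => (Ideal.absNorm (I : Ideal (𝓞 K)) : ℝ) ^ (-s) := by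
  classical
  set f : Ideal (𝓞 K) → ℝ := fun I => (Ideal.absNorm I : ℝ) ^ (-s) with hf
  have h1 : ∀ C : ClassGroup (𝓞 K), Summable ((D.clsDvdAt 𝔠 a C).indicator f) := fun C =>
    summable_subtype_iff_indicator.mp (D.summable_clsDvdAt' κ 𝔠 a C hs)
  have h2 : (D.clsDvd 𝔠 a).indicator f =
      fun I => ∑ C : ClassGroup (𝓞 K), (D.clsDvdAt 𝔠 a C).indicator f I := by
    funext I
    by_cases hI : I ∈ D.clsDvd 𝔠 a
    · rw [Set.indicator_of_mem hI, Finset.sum_eq_single (cl I)]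
      · rw [Set.indicator_of_mem]
        exact ⟨hI, rfl⟩
      · intro C _ hC
        rw [Set.indicator_of_notMem]
        rintro ⟨-, h⟩
        exact hC h.symm
      · intro h
        exact absurd (Finset.mem_univ _) h
    · rw [Set.indicator_of_notMem hI]
      symm
      apply Finset.sum_eq_zero
      intro C _
      rw [Set.indicator_of_notMem]
      rintro ⟨h, -⟩
      exact hI h
  have h3 : Summable ((D.clsDvd 𝔠 a).indicator f) := by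
    rw [h2]
    exact summable_sum fun C _ => h1 C
  exact summable_subtype_iff_indicator.mpr h3

end RayDatum

end Fermat.Agent.S55.H963
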